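import Fermat.Agent.CFT.Global.Cover
import Fermat.Agent.CFT.Global.UnrClasses
import Fermat.Agent.CFT.Global.UnramKummer

/-!
# Prescribed ramification in a larger induced module

The primes of `K` over the new primes become principal, up to `p`-th powers, in a finite extension
unramified outside `S`; Kummer classes there realise every ramification coming from `K`.
-/

set_option autoImplicit false
set_option linter.unusedSectionVars false

noncomputable section

open ExtCitation Fermat.CFT.Coh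
open scoped Pointwise

namespace Fermat.CFT.Sha

local notation "ℚbar" => AlgebraicClosure ℚ
local notation "Γℚ" => (AlgebraicClosure ℚ ≃ₐ[ℚ] AlgebraicClosure ℚ)

variable {p : ℕ} [hp : Fact p.Prime] {K : IntermediateField ℚ ℚbar} [FiniteDimensional ℚ K]
  [Normal ℚ K] {S W : Finset Nat.Primes}

/-- A prime outside a set containing `p` is not `p`. -/
lemma ne_of_pPrime_mem (hpS : pPrime p ∈ S) {q : Nat.Primes} (hq : q ∉ S) : (q : ℕ) ≠ p := fun h =>
  hq (by rw [show q = pPrime p from Subtype.ext h]; exact hpS)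

/-- Some element `a` supported at `w` has order `p ^ k` modulo `p ^ (k + 1)` there, for some `k`;
`α` is a `p ^ k`-th root of it. -/
lemma exists_supported_root (w : Pl K) :
    ∃ (k : ℕ) (a : K) (α : ℚbar), a ≠ 0 ∧ α ^ p ^ k = (a : ℚbar) ∧
      (((p ^ (k + 1) : ℕ) : ℤ) ∣ ord w a - ((p ^ k : ℕ) : ℤ)) ∧
      (((p ^ k : ℕ) : ℤ) ∣ ord w a) ∧ ∀ w' : Pl K, w' ≠ w → ord w' a = 0 := by
  obtain ⟨x, h, hh, hx0, hxw, hx⟩ := exists_ord_pow_single w
  obtain ⟨k, h', hh', hfac⟩ := Nat.exists_eq_pow_mul_and_not_dvd hh.ne' p hp.out.ne_one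
  set e : ℕ := ((h' : ZMod p)⁻¹).val
  have hdvd : (p : ℤ) ∣ (e : ℤ) * h' - 1 := by
    rw [← ZMod.intCast_zmod_eq_zero_iff_dvd]
    have h0 : (h' : ZMod p) ≠ 0 := fun h0 => hh' ((ZMod.natCast_eq_zero_iff h' p).mp h0)
    push_cast
    rw [ZMod.natCast_zmod_val, inv_mul_cancel₀ h0, sub_self]
  obtain ⟨α, hα⟩ := IsAlgClosed.exists_pow_nat_eq ((x ^ e : K) : ℚbar) (pow_pos hp.out.pos k)
  have hord : ord w (x ^ e) = ((p ^ k : ℕ) : ℤ) * ((e : ℤ) * h') := by
    rw [ord_pow, hxw, hfac]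
    push_cast
    ring
  refine ⟨k, x ^ e, α, pow_ne_zero _ hx0, hα, ?_, hord ▸ dvd_mul_right _ _,
    fun w' hw' => by rw [ord_pow, hx w' hw', mul_zero]⟩
  rw [hord, show ((p ^ k : ℕ) : ℤ) * ((e : ℤ) * h') - ((p ^ k : ℕ) : ℤ) =
    ((p ^ k : ℕ) : ℤ) * ((e : ℤ) * h' - 1) by ring, pow_succ, Nat.cast_mul]
  exact mul_dvd_mul_left _ hdvd

/-- **Capitulation**: in a field `K''` unramified outside `S` the divisors over `W` become principal
up to `p`-th powers: some `a` in `K` supported over `W` with orders `p ^ k m` modulo `p ^ (k + 1)`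
is a `p ^ k`-th power in `K''`. -/
theorem exists_capField (hK : UnramOutside (S : Set Nat.Primes) K) (hpS : pPrime p ∈ S)
    (W : Finset Nat.Primes) :
    ∃ K'' : IntermediateField ℚ ℚbar, ∃ (_ : FiniteDimensional ℚ K'') (_ : Normal ℚ K''),
      K ≤ K'' ∧ UnramOutside (S : Set Nat.Primes) K'' ∧
      ∀ m : Pl K → ℤ, ∃ (k : ℕ) (a : (K : Type)ˣ) (b : (K'' : Type)ˣ),
        ((b : K'') : ℚbar) ^ p ^ k = ((a : K) : ℚbar) ∧
        (∀ w, resChar w ∈ W →
          ((p ^ (k + 1) : ℕ) : ℤ) ∣ ord w (a : K) - ((p ^ k : ℕ) : ℤ) * m w) ∧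
        ∀ w, resChar w ∉ W → ord w (a : K) = 0 := by
  classical
  choose k a α ha hα hmain hdvd hoff using fun w : Pl K => exists_supported_root (p := p) w
  set s : Set ℚbar := α '' (plsOver K W : Set (Pl K))
  have : FiniteDimensional ℚ (IntermediateField.adjoin ℚ s) := by
    have := ((plsOver K W).finite_toSet.image α).to_subtype
    exact IntermediateField.finiteDimensional_adjoin fun x _ => Algebra.IsIntegral.isIntegral x
  -- `K` with the roots `α` adjoined is unramified outside `S`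
  set F : IntermediateField ℚ ℚbar := K ⊔ IntermediateField.adjoin ℚ s
  have hF : UnramOutside (S : Set Nat.Primes) F := fun q hq A hA σ hσ => by
    rw [IntermediateField.fixingSubgroup_sup]
    refine ⟨hK q hq A hA hσ, (IntermediateField.mem_fixingSubgroup_iff _ σ).mpr ?_⟩
    refine (IntermediateField.forall_mem_adjoin_smul_eq_self_iff ℚ (S := s) σ).mpr ?_
    rintro _ ⟨w, -, rfl⟩
    refine apply_eq_of_inertia_pow q.2 hA (ne_of_pPrime_mem hpS hq) (ha w) ?_ (hα w) hσ
      (hK q hq A hA hσ)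
    by_cases hw : plBelow K q.2 hA = w
    · rw [hw]; exact hdvd w
    · rw [hoff w _ hw]; exact dvd_zero _
  refine ⟨IntermediateField.normalClosure ℚ F ℚbar, inferInstance, normalClosure.normal ℚ F ℚbar,
    le_sup_left.trans F.le_normalClosure, hF.normalClosure, fun m => ?_⟩
  have hmem : ∀ w : plsOver K W, α w ∈ IntermediateField.normalClosure ℚ F ℚbar := fun w =>
    F.le_normalClosure ((le_sup_right : _ ≤ F) (IntermediateField.subset_adjoin ℚ s
      ⟨w, w.2, rfl⟩))
  have hα0 : ∀ w, α w ≠ 0 := fun w h => ha w (Subtype.ext (by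
    have := hα w
    rw [h, zero_pow (pow_ne_zero _ hp.out.ne_zero)] at this
    exact this.symm))
  set N := ∑ w ∈ plsOver K W, k w
  have hN : ∀ w ∈ plsOver K W, k w ≤ N := fun w hw =>
    Finset.single_le_sum (fun i _ => Nat.zero_le (k i)) hw
  -- the units `a`, `b` as products over the places over `W`
  set B : plsOver K W → (IntermediateField.normalClosure ℚ F ℚbar : Type)ˣ := fun w =>
    Units.mk0 ⟨α w, hmem w⟩ fun h => hα0 w (congrArg Subtype.val h)
  set A : plsOver K W → (K : Type)ˣ := fun w => Units.mk0 (a w) (ha w) ^ p ^ (N - k w)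
  refine ⟨N, ∏ w : plsOver K W, A w ^ m w, ∏ w : plsOver K W, B w ^ m w, ?_, ?_, ?_⟩
  -- `b` is a root of `a`
  · rw [Units.coe_prod, Units.coe_prod, ← SubmonoidClass.coe_pow, ← Finset.prod_pow,
      IntermediateField.coe_prod, IntermediateField.coe_prod]
    refine Finset.prod_congr rfl fun w _ => ?_
    simp only [A, B, Units.val_zpow_eq_zpow_val, Units.val_pow_eq_pow_val, Units.val_mk0,
      SubmonoidClass.coe_pow]
    change ((α w) ^ m w) ^ p ^ N = ((a w : ℚbar) ^ p ^ (N - k w)) ^ m w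
    rw [← hα, ← pow_mul, ← pow_add, Nat.add_sub_cancel' (hN w w.2), ← zpow_natCast, ← zpow_mul,
      mul_comm, zpow_mul, zpow_natCast]
  -- the orders at the places over `W`
  · intro w hw
    have hwP : w ∈ plsOver K W := mem_plsOver.mpr hw
    rw [Units.coe_prod, ord_prod _ _ _ (fun i _ => Units.ne_zero _),
      Finset.sum_eq_single (⟨w, hwP⟩ : plsOver K W)]
    · simp only [A, Units.val_zpow_eq_zpow_val, Units.val_pow_eq_pow_val, Units.val_mk0]
      rw [ord_zpow, ord_pow]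
      obtain ⟨t, ht⟩ := hmain w
      refine ⟨m w * t, ?_⟩
      have e : N = (N - k w) + k w := (Nat.sub_add_cancel (hN w hwP)).symm
      rw [show p ^ (N + 1) = p ^ (N - k w) * p ^ (k w + 1) by rw [← pow_add]; congr 1; omega,
        show p ^ N = p ^ (N - k w) * p ^ (k w) by rw [← pow_add]; congr 1]
      rw [sub_eq_iff_eq_add] at ht
      rw [ht]
      push_cast
      ring
    · intro i _ hi
      simp only [A, Units.val_zpow_eq_zpow_val, Units.val_pow_eq_pow_val, Units.val_mk0]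
      rw [ord_zpow, ord_pow, hoff i w fun h => hi (Subtype.ext h.symm), mul_zero, mul_zero]
    · simp
  -- the orders away from `W`
  · intro w hw
    rw [Units.coe_prod, ord_prod _ _ _ (fun i _ => Units.ne_zero _)]
    refine Finset.sum_eq_zero fun i _ => ?_
    simp only [A, Units.val_zpow_eq_zpow_val, Units.val_pow_eq_pow_val, Units.val_mk0]
    rw [ord_zpow, ord_pow, hoff i w fun h => hw (h ▸ mem_plsOver.mp i.2), mul_zero, mul_zero]

/-! ### Pulling functions back to a larger field -/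

variable {K'' : IntermediateField ℚ ℚbar} {ι : Type}

/-- Cosets of the larger field map onto those of the smaller. -/
def cosetMap (hle : K ≤ K'') : Γℚ ⧸ K''.fixingSubgroup → Γℚ ⧸ K.fixingSubgroup :=
  Subgroup.quotientMapOfLE (IntermediateField.fixingSubgroup_le hle)

/-- `cosetMap` on the coset of `g`. -/
lemma cosetMap_mk (hle : K ≤ K'') (g : Γℚ) :
    cosetMap hle (g : Γℚ ⧸ K''.fixingSubgroup) = (g : Γℚ ⧸ K.fixingSubgroup) := rfl

variable (p ι) in
/-- Pullback of functions on cosets. -/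
def pullInd (hle : K ≤ K'') : IndK p K ι →ₗ[ZMod p] IndK p K'' ι :=
  LinearMap.funLeft (ZMod p) (ι → ZMod p) (cosetMap hle)

/-- Pullback is precomposition with `cosetMap`. -/
lemma pullInd_apply (hle : K ≤ K'') (f : IndK p K ι) (y : Γℚ ⧸ K''.fixingSubgroup) :
    pullInd p ι hle f y = f (cosetMap hle y) := rfl

/-- Pullback is equivariant. -/
lemma pullInd_equivariant (hle : K ≤ K'') :
    IsEquivariant (indK p K ι) (indK p K'' ι) (MonoidHom.id Γℚ) (pullInd p ι hle) := fun g f =>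
  funext fun y => by
    obtain ⟨h, rfl⟩ := QuotientGroup.mk_surjective y
    rfl

/-- Pullback is injective. -/
lemma pullInd_injective (hle : K ≤ K'') : Function.Injective (pullInd p ι hle) := fun f f' h =>
  funext fun y => by
    obtain ⟨g, rfl⟩ := QuotientGroup.mk_surjective y
    exact congrFun h (g : Γℚ ⧸ K''.fixingSubgroup)

/-! ### Realisation -/

variable [FiniteDimensional ℚ K''] [Normal ℚ K''] [Fintype ι] {T : Finset Nat.Primes}

/-- The ramification at a place prescribed by a local cocycle is that of the elements with a given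
valuation there. -/
lemma exists_ord_of_cocycle (hT : IsAdmissible p K T) (hpS : pPrime p ∈ S)
    (hK : UnramOutside (S : Set Nat.Primes) K) (w : Pl K) (hw : resChar w ∉ S)
    (bw : Z1 (glev (decAt (resChar w)).subtype) (repAt (resChar w) (indK p K ι))) (i : ι) :
    ∃ m : ℤ, ∀ (a : Additive (K : Type)ˣ) (α : QU),
      uval α ^ p = (((Additive.toMul a : (K : Type)ˣ) : K) : ℚbar) →
      (p : ℤ) ∣ ord w ((Additive.toMul a : (K : Type)ˣ) : K) - m →
      ∀ g : decGrp (placeOver w) K, (g : Γℚ) ∈ (placeOver w).inertiaSubgroupIn ℚ →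
        zpw p (bw.1 (conjDec w rfl g) (((plConj w)⁻¹ : Γℚ) : Γℚ ⧸ K.fixingSubgroup) i) =
          d₀ (unitsRep (decGrp (placeOver w) K).subtype) α g := by
  have hf : IsDecHom (placeOver w) K (fun g => bw.1 (conjDec w rfl g)
      (((plConj w)⁻¹ : Γℚ) : Γℚ ⧸ K.fixingSubgroup) i) := by
    refine ⟨fun g h => ?_, ((isLevelsHom_conjDec w rfl).isLC₁ bw.2.1).comp
      fun f => f (((plConj w)⁻¹ : Γℚ) : Γℚ ⧸ K.fixingSubgroup) i⟩
    have hmem : ((conjDec w rfl g : decAt (resChar w)) : Γℚ) ∈ K.fixingSubgroup := by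
      change conjHom (plConj w) (g : Γℚ) ∈ K.fixingSubgroup
      rw [conjHom_apply]
      have := (fixingSubgroup_normal_qbar K).conj_mem _ g.2.2 (plConj w)⁻¹
      simpa using this
    rw [map_mul, cocycle₁ bw.2, add_comm]
    change bw.1 (conjDec w rfl g) _ i + indK p K ι ((conjDec w rfl g : decAt (resChar w)) : Γℚ)
      (bw.1 (conjDec w rfl h)) _ i = _
    rw [factors_indK.apply hmem]
  obtain ⟨m, hm⟩ := exists_ord_of_decHom hT le_rfl (resChar w).2 (ne_of_pPrime_mem hpS hw)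
    (placeOver_spec w) (hK (resChar w) (fun h => hw h) _ (placeOver_spec w)) hf
  exact ⟨m, fun a α hα hd => hm a α hα ((plBelow_placeOver w).symm ▸ hd)⟩

/-- The character of a root of an element of `K` whose exponents vanish outside `T` factors through
the levels unramified outside `T`. -/
lemma isLC₁_root (hST : S ⊆ T) (hpS : pPrime p ∈ S) (hK : UnramOutside (S : Set Nat.Primes) K)
    (hK'' : UnramOutside (S : Set Nat.Primes) K'') {j : ℕ} {a : K} (ha : a ≠ 0) {α : QU}
    (hroot : uval α ^ p ^ j = (a : ℚbar))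
    (hoff : ∀ w : Pl K, resChar w ∉ T → ((p ^ j : ℕ) : ℤ) ∣ ord w a)
    {z : Z1 (glev K''.fixingSubgroup.subtype) (triv p K''.fixingSubgroup)}
    (hzα : ∀ g, zpw p (z.1 g) = d₀ (unitsRep K''.fixingSubgroup.subtype) α g) :
    (subLevels (galLevels (T : Set Nat.Primes)) K''.fixingSubgroup).IsLC₁ z.1 := by
  have : FiniteDimensional ℚ (IntermediateField.adjoin ℚ {uval α}) :=
    IntermediateField.finiteDimensional_adjoin fun x _ => Algebra.IsIntegral.isIntegral x
  obtain ⟨N, hN, hle'⟩ := exists_galLevel_le (T := (T : Set Nat.Primes))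
    (K'' ⊔ IntermediateField.adjoin ℚ {uval α}) fun q hq A hA σ hσ => by
      have hqS : q ∉ (S : Set Nat.Primes) := fun h => hq (Finset.coe_subset.mpr hST h)
      rw [IntermediateField.fixingSubgroup_sup]
      refine ⟨hK'' q hqS A hA hσ, (IntermediateField.mem_fixingSubgroup_iff _ σ).mpr ?_⟩
      refine (IntermediateField.forall_mem_adjoin_smul_eq_self_iff ℚ (S := {uval α}) σ).mpr ?_
      rintro _ rfl
      exact apply_eq_of_inertia_pow q.2 hA (ne_of_pPrime_mem hpS hqS) ha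
        (hoff _ fun h => hq (by rw [resChar_plBelow] at h; exact h)) hroot hσ (hK q hqS A hA hσ)
  refine ⟨_, ⟨N, hN, rfl⟩, fun g s hs => ?_⟩
  have hsα : (s : Γℚ) (uval α) = uval α :=
    (IntermediateField.mem_fixingSubgroup_iff _ _).mp
      (IntermediateField.fixingSubgroup_le le_sup_right (hle' hs)) _
      (IntermediateField.subset_adjoin ℚ _ rfl)
  have h0 : z.1 s = 0 := zpw_injective (by
    rw [hzα, map_zero, d₀_apply, sub_eq_zero]
    exact uval_injective hsα)
  rw [triv_hom, h0, add_zero]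

/-- Roots of elements with exponents congruent at a place have the same character on inertia. -/
lemma kummer_eq_of_inertia {ℓ : ℕ} (hℓ : ℓ.Prime) (hℓp : ℓ ≠ p) {A : ValuationSubring ℚbar}
    (hA : A.LiesOverPrime ℓ) {τ : Γℚ} (hτ : τ ∈ A.inertiaSubgroupIn ℚ)
    (hτK : τ ∈ K.fixingSubgroup) (hτK'' : τ ∈ K''.fixingSubgroup) {a b : K} (ha : a ≠ 0)
    (hb : b ≠ 0) {α β : QU} {k : ℕ} (hα : uval α ^ p ^ (k + 1) = (a : ℚbar))
    (hβ : uval β ^ p = (b : ℚbar))
    (hd : ((p ^ (k + 1) : ℕ) : ℤ) ∣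
      ord (plBelow K hℓ hA) a - ((p ^ k : ℕ) : ℤ) * ord (plBelow K hℓ hA) b)
    {x y : ZMod p} (hx : zpw p x = d₀ (unitsRep K''.fixingSubgroup.subtype) α ⟨τ, hτK''⟩)
    (hy : zpw p y = d₀ (unitsRep K.fixingSubgroup.subtype) β ⟨τ, hτK⟩) : x = y := by
  have hfix : τ (uval α / uval β) = uval α / uval β := by
    refine apply_eq_of_inertia_pow hℓ hA hℓp (a := a / b ^ p ^ k)
      (div_ne_zero ha (pow_ne_zero _ hb)) (j := k + 1) ?_ ?_ hτ hτK
    · rw [ord_div _ ha (pow_ne_zero _ hb), ord_pow]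
      exact hd
    · rw [div_pow, hα, pow_succ', pow_mul, hβ]
      push_cast
      rfl
  refine zpw_injective ?_
  rw [hx, hy, d₀_apply, d₀_apply]
  refine uval_injective ?_
  rw [uval_sub, uval_sub, uval_unitsRep, uval_unitsRep, Subgroup.coe_subtype, Subgroup.coe_subtype]
  rw [map_div₀] at hfix
  have hα0 := uval_ne_zero α
  have hβ0 := uval_ne_zero β
  have hτβ0 : τ (uval β) ≠ 0 := (_root_.map_ne_zero τ).mpr hβ0
  change τ (uval α) / uval α = τ (uval β) / uval β
  rw [div_eq_div_iff hτβ0 hβ0] at hfix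
  rw [div_eq_div_iff hα0 hβ0]
  linear_combination hfix

/-- A cocycle with values in functions on cosets, at another coset. -/
lemma cocycle_apply_conj (y : Z1 (galLevels (T : Set Nat.Primes)) (indK p K'' ι)) {σ γ : Γℚ}
    (hσ : σ ∈ K''.fixingSubgroup) (i : ι) :
    y.1 σ (γ : Γℚ ⧸ K''.fixingSubgroup) i =
      y.1 (γ⁻¹ * σ * γ) ((1 : Γℚ) : Γℚ ⧸ K''.fixingSubgroup) i := by
  have h1 := cocycle₁ y.2 γ (γ⁻¹ * σ * γ)
  rw [show γ * (γ⁻¹ * σ * γ) = σ * γ by group, cocycle₁ y.2, factors_indK.apply hσ] at h1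
  have h2 : y.1 σ = indK p K'' ι γ (y.1 (γ⁻¹ * σ * γ)) := by
    linear_combination (norm := abel) h1
  rw [h2, indRep_apply, Representation.trivial_apply, MulAction.Quotient.smul_mk, smul_eq_mul,
    inv_mul_cancel]

/-- A local cocycle on inertia, at a coset, from the chosen place of that coset. -/
lemma localCocycle_apply_coset (w : Pl K)
    (bw : Z1 (glev (decAt (resChar w)).subtype) (repAt (resChar w) (indK p K ι)))
    (σ : (placeAt (resChar w)).inertiaSubgroupIn ℚ) (hσK : (σ : Γℚ) ∈ K.fixingSubgroup)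
    {γ g : Γℚ} (hg : g ∈ K.fixingSubgroup) (hgA : g • placeOver w = γ⁻¹ • placeAt (resChar w))
    (g₀ : decGrp (placeOver w) K) (hg₀ : (g₀ : Γℚ) = g⁻¹ * (γ⁻¹ * σ * γ) * g) (i : ι) :
    bw.1 ⟨σ, mem_decAt_of_inertia σ.2⟩ (γ : Γℚ ⧸ K.fixingSubgroup) i =
      bw.1 (conjDec w rfl g₀) (((plConj w)⁻¹ : Γℚ) : Γℚ ⧸ K.fixingSubgroup) i := by
  have hd : γ * g * plConj w ∈ decAt (resChar w) := by
    refine MulAction.mem_stabilizer_iff.mpr ?_
    rw [mul_smul, mul_smul]
    change γ • g • placeOver w = placeAt (resChar w)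
    rw [hgA]
    exact smul_inv_smul γ _
  set d : decAt (resChar w) := ⟨_, hd⟩
  set σ' : decAt (resChar w) := ⟨σ, mem_decAt_of_inertia σ.2⟩
  have hds : d * conjDec w rfl g₀ = σ' * d := Subtype.ext (by
    change γ * g * plConj w * conjHom (plConj w) (g₀ : Γℚ) = (σ : Γℚ) * (γ * g * plConj w)
    rw [conjHom_apply, hg₀]
    group)
  have h1 := congrArg bw.1 hds
  rw [cocycle₁ bw.2, cocycle₁ bw.2] at h1
  have hρσ : (repAt (resChar w) (indK p K ι)) σ' (bw.1 d) = bw.1 d := factors_indK.apply hσK _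
  rw [hρσ] at h1
  have h2 : bw.1 σ' = indK p K ι (γ * g * plConj w) (bw.1 (conjDec w rfl g₀)) := by
    have h3 : (repAt (resChar w) (indK p K ι)) d (bw.1 (conjDec w rfl g₀)) = bw.1 σ' := by
      linear_combination (norm := abel) h1
    exact h3.symm
  rw [h2, indRep_apply, Representation.trivial_apply, MulAction.Quotient.smul_mk, smul_eq_mul,
    show (γ * g * plConj w)⁻¹ * γ = (plConj w)⁻¹ * g⁻¹ by group]
  refine congrFun (congrArg _ (QuotientGroup.eq.mpr ?_)) i
  rw [← inv_mem_iff]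
  simpa using hg

/-- **Prescribed ramification**: some global class has the pulled back ramification. -/
theorem exists_realize (hT : IsAdmissible p K T) (hST : S ⊆ T) (hpS : pPrime p ∈ S)
    (hK : UnramOutside (S : Set Nat.Primes) K) (hle : K ≤ K'')
    (hK'' : UnramOutside (S : Set Nat.Primes) K'')
    (hcap : ∀ m : Pl K → ℤ, ∃ (k : ℕ) (a : (K : Type)ˣ) (b : (K'' : Type)ˣ),
        ((b : K'') : ℚbar) ^ p ^ k = ((a : K) : ℚbar) ∧
        (∀ w, resChar w ∈ T \ S →
          ((p ^ (k + 1) : ℕ) : ℤ) ∣ ord w (a : K) - ((p ^ k : ℕ) : ℤ) * m w) ∧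
        ∀ w, resChar w ∉ T \ S → ord w (a : K) = 0)
    (b : ∀ v : ↥(T \ S), Z1 (glev (decAt (v : Nat.Primes)).subtype)
      (repAt (v : Nat.Primes) (indK p K ι))) :
    ∃ y : Z1 (galLevels (T : Set Nat.Primes)) (indK p K'' ι), ∀ (v : ↥(T \ S))
      (σ : (placeAt (v : Nat.Primes)).inertiaSubgroupIn ℚ),
      y.1 σ = pullInd p ι hle ((b v).1 ⟨σ, mem_decAt_of_inertia σ.2⟩) := by
  classical
  have hχ'' : ∀ g, cycHom p K''.fixingSubgroup.subtype g = 1 := fun g =>
    hT.cycHom_eq_one ⟨g.1, IntermediateField.fixingSubgroup_le hle g.2⟩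
  -- the exponents
  have hexists : ∀ (w : Pl K) (i : ι), ∃ m : ℤ, ∀ hw : resChar w ∈ T \ S,
      ∀ (a : Additive (K : Type)ˣ) (α : QU),
        uval α ^ p = (((Additive.toMul a : (K : Type)ˣ) : K) : ℚbar) →
        (p : ℤ) ∣ ord w ((Additive.toMul a : (K : Type)ˣ) : K) - m →
        ∀ g : decGrp (placeOver w) K, (g : Γℚ) ∈ (placeOver w).inertiaSubgroupIn ℚ →
          zpw p ((b ⟨resChar w, hw⟩).1 (conjDec w rfl g)
            (((plConj w)⁻¹ : Γℚ) : Γℚ ⧸ K.fixingSubgroup) i) =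
          d₀ (unitsRep (decGrp (placeOver w) K).subtype) α g := fun w i => by
    by_cases hw : resChar w ∈ T \ S
    · obtain ⟨m, hm⟩ :=
        exists_ord_of_cocycle hT hpS hK w (Finset.mem_sdiff.mp hw).2 (b ⟨resChar w, hw⟩) i
      exact ⟨m, fun _ => hm⟩
    · exact ⟨0, fun h => absurd h hw⟩
  choose m hm using hexists
  choose k a bb hab hord hoff using fun i => hcap fun w => m w i
  choose z hz α hαp hzα using fun i => exists_gkum_cocycle hχ'' (Additive.ofMul (bb i))
  have hroot : ∀ i, uval (α i) ^ p ^ (k i + 1) = ((a i : K) : ℚbar) := fun i => by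
    rw [pow_succ', pow_mul, hαp]
    exact hab i
  -- the classes over `K''`
  have hlc := fun i => isLC₁_root hST hpS hK hK'' (Units.ne_zero (a i)) (hroot i)
    (fun w hw => by rw [hoff i w fun h => hw (Finset.mem_sdiff.mp h).1]; exact dvd_zero _) (hzα i)
  obtain ⟨c, hc⟩ := exists_gcomp₁ (K := K'') (T := T)
    (exists_galLevel_le K'' (hK''.mono (Finset.coe_subset.mpr hST)))
    fun i => cl₁ (subLevels (galLevels (T : Set Nat.Primes)) K''.fixingSubgroup)
      (triv p K''.fixingSubgroup) ⟨(z i).1, hlc i, (z i).2.2⟩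
  obtain ⟨y, rfl⟩ := cl₁_surjective c
  have hy : ∀ (i : ι) (g : K''.fixingSubgroup),
      y.1 g ((1 : Γℚ) : Γℚ ⧸ K''.fixingSubgroup) i = (z i).1 g := fun i g => by
    have h := hc i
    rw [gcomp₁, map₁_cl₁, ← sub_eq_zero, ← map_sub, cl₁_triv_eq_zero, sub_eq_zero] at h
    exact congrFun (congrArg Subtype.val h) g
  refine ⟨y, fun v σ => funext fun x => funext fun i => ?_⟩
  obtain ⟨γ, rfl⟩ := QuotientGroup.mk_surjective x
  obtain ⟨v, hv⟩ := v
  have hvS : v ∉ (S : Set Nat.Primes) := fun h => (Finset.mem_sdiff.mp hv).2 h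
  rw [pullInd_apply, cosetMap_mk]
  -- the conjugate and its place
  set τ : Γℚ := γ⁻¹ * σ * γ with hτdef
  set A := γ⁻¹ • placeAt v
  have hA : A.LiesOverPrime (v : ℕ) := liesOverPrime_smul _ (placeAt_spec v)
  have hτI : τ ∈ A.inertiaSubgroupIn ℚ := by
    have h := mem_inertiaSubgroupIn_smul v.2 (placeAt_spec v) σ.2 γ⁻¹
    rwa [inv_inv] at h
  have hτK'' : τ ∈ K''.fixingSubgroup := hK'' v hvS A hA hτI
  have hσK'' : (σ : Γℚ) ∈ K''.fixingSubgroup := hK'' v hvS _ (placeAt_spec v) σ.2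
  rw [cocycle_apply_conj y hσK'', ← hτdef, hy i ⟨τ, hτK''⟩]
  -- the chosen place
  obtain ⟨w, hw0⟩ : ∃ w, plBelow K v.2 hA = w := ⟨_, rfl⟩
  obtain rfl : resChar w = v := hw0 ▸ resChar_plBelow hA
  have hw : resChar w ∈ T \ S := hv
  obtain ⟨g, hg, hgA⟩ := exists_smul_of_plBelow_eq (K := K) (resChar w).2 (placeOver_spec w)
    (B := A) hA (by rw [plBelow_placeOver, hw0])
  set τ₀ : Γℚ := g⁻¹ * τ * g with hτ₀def
  have hτ₀I : τ₀ ∈ (placeOver w).inertiaSubgroupIn ℚ := by
    have h := mem_inertiaSubgroupIn_smul (resChar w).2 hA hτI g⁻¹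
    rwa [inv_inv, inv_smul_eq_iff.mpr hgA.symm] at h
  have hτK : τ ∈ K.fixingSubgroup := IntermediateField.fixingSubgroup_le hle hτK''
  have hτ₀K : τ₀ ∈ K.fixingSubgroup := mul_mem (mul_mem (inv_mem hg) hτK) hg
  have hτ₀D : τ₀ ∈ (placeOver w).decompositionSubgroup ℚ := by
    obtain ⟨t, -, ht⟩ := hτ₀I
    rw [← ht]
    exact t.2
  set g₀ : decGrp (placeOver w) K := ⟨τ₀, hτ₀D, hτ₀K⟩
  obtain ⟨π, hπ0, hπ⟩ := exists_ord_eq_one w
  set πu : (K : Type)ˣ := Units.mk0 π hπ0 ^ m w i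
  obtain ⟨z', -, α', hα'p, hz'⟩ := exists_gkum_cocycle hT.cycHom_eq_one (Additive.ofMul πu)
  have hπord : ord w (πu : K) = m w i := by
    simp only [πu, Units.val_zpow_eq_zpow_val, Units.val_mk0, ord_zpow, hπ, mul_one]
  have hkey := hm w i hw (Additive.ofMul πu) α' hα'p (by
    change (p : ℤ) ∣ ord w (πu : K) - m w i
    rw [hπord, sub_self]
    exact dvd_zero _) g₀ hτ₀I
  -- the two Kummer classes agree on inertia
  have e2 : (z i).1 ⟨τ, hτK''⟩ = z'.1 ⟨τ, hτK⟩ :=
    kummer_eq_of_inertia (resChar w).2 (ne_of_pPrime_mem hpS hvS) hA hτI hτK hτK''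
      (Units.ne_zero (a i)) (Units.ne_zero πu) (hroot i) hα'p
      (by rw [hw0, hπord]; exact hord i w hw) (hzα i _) (hz' _)
  have e3 : z'.1 ⟨τ, hτK⟩ = z'.1 ⟨τ₀, hτ₀K⟩ := by
    have h : (⟨g, hg⟩ : K.fixingSubgroup) * ⟨τ₀, hτ₀K⟩ = ⟨τ, hτK⟩ * ⟨g, hg⟩ :=
      Subtype.ext (by change g * τ₀ = τ * g; rw [hτ₀def]; group)
    have h1 := congrArg z'.1 h
    rw [triv_hom, triv_hom] at h1
    linear_combination -h1
  have e4 : (b ⟨resChar w, hw⟩).1 (conjDec w rfl g₀)
      (((plConj w)⁻¹ : Γℚ) : Γℚ ⧸ K.fixingSubgroup) i = z'.1 ⟨τ₀, hτ₀K⟩ :=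
    zpw_injective (hkey.trans (hz' ⟨τ₀, hτ₀K⟩).symm)
  rw [e2, e3, ← e4]
  exact (localCocycle_apply_coset w (b ⟨resChar w, hw⟩) σ
    (IntermediateField.fixingSubgroup_le hle hσK'') hg hgA g₀ rfl i).symm

end Fermat.CFT.Sha
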