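import Fermat.Agent.CFT.Sha.Ram

/-!
# The cokernel of the global ramification map

At a linked set `T` the ramifications of global classes at the primes outside `S` have codimension
equal to the number of new classes vanishing at `S` for the dual module.
-/

set_option autoImplicit false

noncomputable section

open Fermat.CFT.Coh
open scoped Pointwise

namespace Fermat.CFT.Sha

local notation "ℚbar" => AlgebraicClosure ℚ
local notation "Γℚ" => (AlgebraicClosure ℚ ≃ₐ[ℚ] AlgebraicClosure ℚ)

variable {p : ℕ} [hp : Fact p.Prime] {K : IntermediateField ℚ ℚbar} [FiniteDimensional ℚ K]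
  [Normal ℚ K] {S T : Finset Nat.Primes}
  {M M' : Type} [AddCommGroup M] [Module (ZMod p) M] [FiniteDimensional (ZMod p) M]
  [AddCommGroup M'] [Module (ZMod p) M'] [FiniteDimensional (ZMod p) M']
  {ρ : Representation (ZMod p) Γℚ M} {ρ' : Representation (ZMod p) Γℚ M'}

omit [FiniteDimensional (ZMod p) M] in
/-- The classes unramified outside `S` form a finite dimensional space if those for `T` do. -/
lemma finite_H1_S (hST : S ⊆ T)
    [FiniteDimensional (ZMod p) (H1 (galLevels (T : Set Nat.Primes)) ρ)] :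
    FiniteDimensional (ZMod p) (H1 (galLevels (S : Set Nat.Primes)) ρ) :=
  FiniteDimensional.of_injective _ (infl_injective (ρ := ρ) (Finset.coe_subset.mpr hST))

variable (hT : IsAdmissible p K T) (hL : Linked p K T) (h2 : 2 < p) (hST : S ⊆ T)
  (D : DualPair S ρ ρ') (hρ : Factors K ρ)

open Classical in
/-- The conditions: none at `S`, unramified outside. -/
private def condTop (S T : Finset Nat.Primes) (ρ : Representation (ZMod p) Γℚ M) :
    ∀ v : T, Submodule (ZMod p) (LH1 (v : Nat.Primes) ρ) := fun v =>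
  if (v : Nat.Primes) ∈ S then ⊤ else unrSub ρ v

open Classical in
/-- The dual conditions: zero at `S`, unramified outside. -/
private def condBot (S T : Finset Nat.Primes) (ρ : Representation (ZMod p) Γℚ M) :
    ∀ v : T, Submodule (ZMod p) (LH1 (v : Nat.Primes) ρ) := fun v =>
  if (v : Nat.Primes) ∈ S then ⊥ else unrSub ρ v

include h2 D in
/-- The classes without ramification outside `S` are those meeting the conditions. -/
private lemma ker_ram_eq (locW : H1 (galLevels (T : Set Nat.Primes)) ρ →ₗ[ZMod p] P1 (T \ S) ρ)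
    (hlocW : ∀ (x) (v : ↥(T \ S)),
      locW x v = loc₁ T ρ x ⟨(v : Nat.Primes), (Finset.mem_sdiff.mp v.2).1⟩) :
    LinearMap.ker ((ramLoc D.smooth T).comp locW) = (piSub (condTop S T ρ)).comap (loc₁ T ρ) := by
  ext x
  constructor
  · intro hx v
    by_cases hv : (v : Nat.Primes) ∈ S
    · rw [condTop, if_pos hv]; exact Submodule.mem_top
    · rw [condTop, if_neg hv, ← ker_ramv D h2 hv]
      have h := congrFun (LinearMap.mem_ker.mp hx)
        ⟨(v : Nat.Primes), Finset.mem_sdiff.mpr ⟨v.2, hv⟩⟩
      rw [← hlocW x ⟨(v : Nat.Primes), Finset.mem_sdiff.mpr ⟨v.2, hv⟩⟩]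
      exact h
  · intro hx
    refine LinearMap.mem_ker.mpr (funext fun v => ?_)
    have hv := Finset.mem_sdiff.mp v.2
    have h : loc₁ T ρ x ⟨(v : Nat.Primes), hv.1⟩ ∈ condTop S T ρ ⟨(v : Nat.Primes), hv.1⟩ :=
      hx ⟨(v : Nat.Primes), hv.1⟩
    rw [condTop, if_neg hv.2, ← ker_ramv D h2 hv.2, ← hlocW x v] at h
    exact h

include h2 D in
/-- The classes annihilated by the conditions come from classes vanishing at `S`. -/
private lemma perp_condTop_le : (piSub fun v : T =>
      Devissage.perp ((D.mono hST).q₁ h2 (v : Nat.Primes)) (condTop S T ρ v)).comap (loc₁ T ρ') ≤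
    (LinearMap.ker (loc₁ S ρ')).map (GR.RT.infl ρ' (Finset.coe_subset.mpr hST)) := by
  have : Finite M' := Module.finite_of_finite (ZMod p)
  intro x hx
  have hx' : ∀ v, ∀ hv : v ∈ T, GR.RT.locAt (T : Set Nat.Primes) ρ' v x ∈
      Devissage.perp ((D.mono hST).q₁ h2 v) (condTop S T ρ ⟨v, hv⟩) := fun v hv => hx ⟨v, hv⟩
  obtain ⟨y, rfl⟩ := exists_infl_of_unrSub (Finset.coe_subset.mpr hST) D.smooth' x
      fun v hv hvS => by
    have h := hx' v hv
    rw [condTop, if_neg (show ((⟨v, hv⟩ : T) : Nat.Primes) ∉ S from fun h => hvS h)] at h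
    exact perp_unrSub_le D h2 (fun h => hvS h) h
  refine ⟨y, LinearMap.mem_ker.mpr (funext fun v => ?_), rfl⟩
  have h := hx' v (hST v.2)
  rw [condTop, if_pos v.2, GR.RT.locAt_infl, Devissage.mem_perp] at h
  refine ((D.mono hST).flip.q₁_bijective h2 (v : Nat.Primes)).1 (LinearMap.ext fun a => ?_)
  have h' : (D.mono hST).q₁ h2 (v : Nat.Primes) a (loc₁ S ρ' y v) = 0 := h a Submodule.mem_top
  rw [DualPair.q₁_flip, h', neg_zero]
  change (0 : ZMod p) =
    (D.mono hST).flip.q₁ h2 (v : Nat.Primes) (0 : LH1 (v : Nat.Primes) ρ') a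
  rw [map_zero, LinearMap.zero_apply]

/-- Classes vanishing at `S` meet the dual conditions. -/
private lemma map_infl_le_condBot : (LinearMap.ker (loc₁ S ρ')).map
      (GR.RT.infl ρ' (Finset.coe_subset.mpr hST)) ≤ (piSub (condBot S T ρ')).comap (loc₁ T ρ') := by
  have : Finite M' := Module.finite_of_finite (ZMod p)
  rintro _ ⟨x, hx, rfl⟩ v
  change GR.RT.locAt (T : Set Nat.Primes) ρ' v
    (GR.RT.infl ρ' (Finset.coe_subset.mpr hST) x) ∈ condBot S T ρ' v
  rw [GR.RT.locAt_infl]
  by_cases hv : (v : Nat.Primes) ∈ S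
  · rw [condBot, if_pos hv, Submodule.mem_bot]
    exact congrFun (show loc₁ S ρ' x = 0 from hx) ⟨(v : Nat.Primes), hv⟩
  · rw [condBot, if_neg hv]
    exact map₁_mem_unrSub (fun h => hv h) x

include h2 D in
/-- The classes annihilated by the dual conditions meet the conditions. -/
private lemma perp_condBot_le : (piSub fun v : T =>
      Devissage.perp ((D.mono hST).flip.q₁ h2 (v : Nat.Primes)) (condBot S T ρ' v)).comap
        (loc₁ T ρ) ≤ (piSub (condTop S T ρ)).comap (loc₁ T ρ) := by
  have : Finite M' := Module.finite_of_finite (ZMod p)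
  intro x hx v
  by_cases hv : (v : Nat.Primes) ∈ S
  · rw [condTop, if_pos hv]; exact Submodule.mem_top
  · have h : loc₁ T ρ x v ∈
        Devissage.perp ((D.mono hST).flip.q₁ h2 (v : Nat.Primes)) (condBot S T ρ' v) := hx v
    rw [condBot, if_neg hv] at h
    rw [condTop, if_neg hv]
    exact perp_unrSub_le D.flip h2 hv h

open Classical in
include h2 D in
/-- The sum of the dimensions of the conditions. -/
private lemma sum_finrank_condTop (hST : S ⊆ T) : ∑ v : T,
    Module.finrank (ZMod p) (condTop S T ρ v) =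
    ∑ v ∈ T \ S, Module.finrank (ZMod p) (H0 (repAt v ρ)) +
      ∑ v ∈ S, Module.finrank (ZMod p) (LH1 v ρ) := by
  have : ∀ v, FiniteDimensional (ZMod p) (LH1 v ρ) := fun v => D.finite_LH1 h2 v
  have h : ∀ v : T, Module.finrank (ZMod p) (condTop S T ρ v) = (fun v : Nat.Primes =>
      if v ∈ S then Module.finrank (ZMod p) (LH1 v ρ)
      else Module.finrank (ZMod p) (H0 (repAt v ρ))) (v : Nat.Primes) := fun v => by
    by_cases hv : (v : Nat.Primes) ∈ S
    · rw [condTop, if_pos hv, finrank_top]; exact (if_pos hv).symm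
    · rw [condTop, if_neg hv]
      exact (le_antisymm (finrank_unrSub_le D h2 hv) (finrank_H0_le_unrSub D h2 hv)).trans
        (if_neg hv).symm
  rw [Finset.sum_congr rfl fun v _ => h v, Finset.sum_coe_sort T fun v : Nat.Primes =>
      if v ∈ S then Module.finrank (ZMod p) (LH1 v ρ)
      else Module.finrank (ZMod p) (H0 (repAt v ρ)),
    ← Finset.sum_sdiff hST]
  exact congrArg₂ (· + ·) (Finset.sum_congr rfl fun v hv => if_neg (Finset.mem_sdiff.mp hv).2)
    (Finset.sum_congr rfl fun v hv => if_pos hv)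

open Classical in
include h2 D in
/-- The sum of the dimensions of the dual conditions. -/
private lemma sum_finrank_condBot (hST : S ⊆ T) :
    ∑ v : T, Module.finrank (ZMod p) (condBot S T ρ' v) =
      ∑ v ∈ T \ S, Module.finrank (ZMod p) (H0 (repAt v ρ')) := by
  have h : ∀ v : T, Module.finrank (ZMod p) (condBot S T ρ' v) = (fun v : Nat.Primes =>
      if v ∈ S then 0 else Module.finrank (ZMod p) (H0 (repAt v ρ'))) (v : Nat.Primes) :=
        fun v => by
    by_cases hv : (v : Nat.Primes) ∈ S
    · rw [condBot, if_pos hv, finrank_bot]; exact (if_pos hv).symm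
    · rw [condBot, if_neg hv]
      exact (le_antisymm (finrank_unrSub_le D.flip h2 hv) (finrank_H0_le_unrSub D.flip h2 hv)).trans
        (if_neg hv).symm
  rw [Finset.sum_congr rfl fun v _ => h v, Finset.sum_coe_sort T fun v : Nat.Primes =>
      if v ∈ S then 0 else Module.finrank (ZMod p) (H0 (repAt v ρ')),
    ← Finset.sum_sdiff hST,
    Finset.sum_eq_zero (s := S) fun v hv => if_pos hv, add_zero]
  exact Finset.sum_congr rfl fun v hv => if_neg (Finset.mem_sdiff.mp hv).2

include hT hL h2 hST D hρ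

/-- **The cokernel of the global ramification map.** -/
theorem finrank_ramGlob_add :
    Module.finrank (ZMod p) (ramGlob ρ S T) +
        Module.finrank (ZMod p) (LinearMap.ker (loc₁ S ρ')) =
      Module.finrank (ZMod p) (LinearMap.range (ramLoc D.smooth T)) +
        Module.finrank (ZMod p) (LinearMap.ker (loc₁ T ρ')) := by
  classical
  have hST' : (S : Set Nat.Primes) ⊆ T := Finset.coe_subset.mpr hST
  set D' := D.mono hST
  have hρ' := D'.factors' hT hρ
  have := finite_H1_of_factors hT hL h2 D' hρ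
  have := finite_H1_of_factors hT hL h2 D'.flip hρ'
  have := finite_H1_S (ρ := ρ') hST
  have : Finite M' := Module.finite_of_finite (ZMod p)
  -- the ramification on classes
  let locW : H1 (galLevels (T : Set Nat.Primes)) ρ →ₗ[ZMod p] P1 (T \ S) ρ :=
    LinearMap.pi fun v : ↥(T \ S) => map₁ (locHom (T : Set Nat.Primes) (v : Nat.Primes))
      (IsEquivariant.restrict ρ (decAt (v : Nat.Primes)).subtype)
  set g := (ramLoc D.smooth T).comp locW with hg
  have hrange : LinearMap.range g = ramGlob ρ S T := by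
    ext y
    constructor
    · rintro ⟨x, rfl⟩
      obtain ⟨z, rfl⟩ := cl₁_surjective x
      exact ⟨z.1, z.2, ramTot_cocycle D.smooth z⟩
    · rintro ⟨z, hz, rfl⟩
      exact ⟨cl₁ (galLevels (T : Set Nat.Primes)) ρ ⟨z, hz⟩,
        (ramTot_cocycle D.smooth ⟨z, hz⟩).symm⟩
  have hker : LinearMap.ker g = (piSub (condTop S T ρ)).comap (loc₁ T ρ) :=
    ker_ram_eq h2 D locW fun _ _ => rfl
  have hinfl := infl_injective (ρ := ρ') hST'
  -- the two inequalities
  have g1 := gw_linked hT hL h2 D' hρ (condTop S T ρ)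
  have g2 := gw_linked hT hL h2 D'.flip hρ' (condBot S T ρ')
  have i1 := Submodule.finrank_mono (perp_condTop_le h2 hST D)
  have i1' := Submodule.finrank_mono (map_infl_le_condBot (ρ' := ρ') hST)
  have i2 := Submodule.finrank_mono (perp_condBot_le h2 hST D)
  rw [Devissage.finrank_map_of_injective hinfl] at i1 i1'
  rw [show D.mono hST = D' from rfl] at i1 i2
  -- the local dimensions
  have : ∀ v, FiniteDimensional (ZMod p) (LH1 v ρ) := fun v => D.finite_LH1 h2 v
  let l : Nat.Primes → ℕ := fun v => Module.finrank (ZMod p) (LH1 v ρ)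
  let f : Nat.Primes → ℕ := fun v => Module.finrank (ZMod p) (H0 (repAt v ρ))
  let f' : Nat.Primes → ℕ := fun v => Module.finrank (ZMod p) (H0 (repAt v ρ'))
  have sP := sum_finrank_LH1 hT hL h2 D' hρ
  have sR := finrank_range_ramLoc (T := T) D h2
  have sW : ∀ v ∈ T \ S, l v = f v + f' v := fun v hv =>
    finrank_LH1_eq D h2 (Finset.mem_sdiff.mp hv).2
  rw [sum_finrank_condTop h2 D hST, Finset.sum_coe_sort T f] at g1
  rw [sum_finrank_condBot h2 D hST, Finset.sum_coe_sort T f'] at g2
  rw [Finset.sum_coe_sort T l, Finset.sum_coe_sort T f, Finset.sum_coe_sort T f'] at sP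
  rw [Finset.sum_coe_sort (T \ S) f'] at sR
  have split : ∀ q : Nat.Primes → ℕ, ∑ v ∈ T, q v = ∑ v ∈ T \ S, q v + ∑ v ∈ S, q v :=
    fun q => (Finset.sum_sdiff hST).symm
  have a5 := Finset.sum_congr rfl sW
  rw [Finset.sum_add_distrib] at a5
  rw [split f] at g1
  rw [split f'] at g2
  rw [split l, split f, split f'] at sP
  have e1 := g.finrank_range_add_finrank_ker
  rw [hrange, hker] at e1
  have e2 := euler_char hT hL h2 hρ
  have e3 := Euler.finrank_H2_add hT hL h2 D' hρ
  rw [Finset.sum_coe_sort T f', split f'] at e3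
  have e4 := D'.finrank_conjFix_add h2
  simp only [l, f, f'] at g1 g2 sP sR a5 e3
  omega

end Fermat.CFT.Sha
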