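import Fermat.Agent.CFT.Sha.Count
import Fermat.Agent.CFT.Sha.Capitulation

/-!
# Locally trivial classes for an arbitrary finite set of primes

The classes of degree two unramified outside `S` and vanishing at `S` are as many as the classes
of degree one of the dual module with the same property (`finrank_sha`). Steps: choose a linked
`T ⊇ S`; the locally trivial classes at `T` lift to those at `S` (`exists_lift`); the classes dying
at `T` are the local ramifications at `T \ S` modulo the global ones (`finrank_ker_infl₂`), whose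
number is `finrank_ramGlob_add`.

Linked means `Linked` of `CFT/Global/InducedH2`; such sets exist by `exists_linked`
(`CFT/Global/Linking`).
-/

set_option autoImplicit false
set_option linter.unusedSectionVars false

noncomputable section

open ExtCitation Fermat.CFT.Coh
open scoped Pointwise

namespace Fermat.CFT.Sha

local notation "ℚbar" => AlgebraicClosure ℚ
local notation "Γℚ" => (AlgebraicClosure ℚ ≃ₐ[ℚ] AlgebraicClosure ℚ)

variable {p : ℕ} [hp : Fact p.Prime] {S T : Finset Nat.Primes}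
  {M M' : Type} [AddCommGroup M] [Module (ZMod p) M] [FiniteDimensional (ZMod p) M]
  [AddCommGroup M'] [Module (ZMod p) M'] [FiniteDimensional (ZMod p) M']
  {ρ : Representation (ZMod p) Γℚ M} {ρ' : Representation (ZMod p) Γℚ M'}

/-- At a prime outside `S` a cocycle of degree two from `S` is the coboundary of an unramified
cochain. -/
lemma exists_unram_bound (h2 : 2 < p) {S : Set Nat.Primes} (hsm : IsSmooth (galLevels S) ρ)
    {z : Γℚ → Γℚ → M} (hz : z ∈ Z2 (galLevels S) ρ) {v : Nat.Primes} (hv : v ∉ S) :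
    ∃ u : decAt v → M, (glev (decAt v).subtype).IsLC₁ u ∧
      (∀ σ : inert v, u ⟨σ, mem_decAt_of_inertia σ.2⟩ = u 1) ∧
      d₁ (repAt v ρ) u = fun g h : decAt v => z g h := by
  obtain ⟨N₁, hN₁, hzLC⟩ := hz.1
  obtain ⟨N₂, hN₂, hM⟩ := hsm.exists_fix_all
  obtain ⟨_, ⟨E, hEf, hEn, hEu, rfl⟩, i1, i2⟩ := (galLevels S).exists_le N₁ N₂ hN₁ hN₂
  -- an unramified extension `E'` of `E`, generated by Frobenius, of degree divisible by `p` over it
  obtain ⟨φ, hφ⟩ := exists_isFrobeniusAt v.2 (placeAt_spec v)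
  obtain ⟨E', hE'f, hE'n, hEE', hI, hgen, hord⟩ :=
    exists_unram_ext h2 v.2 (placeAt_spec v) E (hEu v hv _ (placeAt_spec v)) hφ
  have hE' : (galLevels ({v}ᶜ : Set Nat.Primes)).IsLevel E'.fixingSubgroup :=
    ⟨E', hE'f, hE'n, fun q hq A hA σ hσ => by
      obtain rfl : q = v := by simpa using hq
      obtain ⟨g, hg⟩ := exists_smul_place q.2 hA (placeAt_spec q)
      have h1 := hI (show g * σ * g⁻¹ ∈ (placeAt q).inertiaSubgroupIn ℚ from
        hg ▸ mem_inertiaSubgroupIn_smul q.2 hA hσ g)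
      have h3 := (fixingSubgroup_normal_qbar E').conj_mem _ h1 g⁻¹
      simpa [mul_assoc] using h3, rfl⟩
  have h0 : cl₂ (uLev v) (repAt v ρ)
      (mapZ2 (locHom_uLev hv) (IsEquivariant.restrict ρ (decAt v).subtype) ⟨z, hz⟩) = 0 := by
    refine cl₂_eq_zero_of_cyclic _ (N₀ := E.fixingSubgroup.comap (decAt v).subtype)
      (N₁ := E'.fixingSubgroup.comap (decAt v).subtype) ⟨_, hE', rfl⟩
      (fun s hs x => hM _ (i2 hs) x) (fun g h s hs t ht => hzLC g h s (i1 hs) t (i1 ht))
      (Subgroup.comap_mono (IntermediateField.fixingSubgroup_le hEE'))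
      (φ := ⟨φ, hφ.mem_decompositionSubgroup⟩)
      (fun g => ?_) (m := orderOf (AlgEquiv.restrictNormalHom E φ)) (e := p) ?_ (fun k hk => ?_)
      fun x => by rw [← Nat.cast_smul_eq_nsmul (ZMod p), ZMod.natCast_self, zero_smul]
    · obtain ⟨k, hk⟩ := hgen g g.2
      refine ⟨k, ?_⟩
      change (((⟨φ, hφ.mem_decompositionSubgroup⟩ : decAt v) ^ k)⁻¹ * g : decAt v).1 ∈
        E'.fixingSubgroup
      rw [Subgroup.coe_mul, Subgroup.coe_inv, SubmonoidClass.coe_pow]
      exact hk
    · change ((⟨φ, hφ.mem_decompositionSubgroup⟩ : decAt v) ^ _).1 ∈ E.fixingSubgroup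
      rw [SubmonoidClass.coe_pow, ← restrict_eq_one_iff, map_pow, pow_orderOf_eq_one]
    · have hk' : (((⟨φ, hφ.mem_decompositionSubgroup⟩ : decAt v) ^ k) : decAt v).1 ∈
        E'.fixingSubgroup := hk
      rw [SubmonoidClass.coe_pow] at hk'
      exact hord k hk'
  obtain ⟨u, hu, hdu⟩ := cl₂_eq_zero.mp h0
  refine ⟨u, (uLev_glev v).isLC₁ hu, fun σ => ?_, hdu⟩
  obtain ⟨_, ⟨_, ⟨F, -, -, hFu, rfl⟩, rfl⟩, hLC⟩ := hu
  have := hLC 1 ⟨σ, mem_decAt_of_inertia σ.2⟩ (hFu v (by simp) _ (placeAt_spec v) σ.2)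
  rwa [one_mul] at this

/-- Inflation from `S` to `T` does not change the localisations at the primes of `S`. -/
lemma loc₂_infl (hST : S ⊆ T) (x : H2 (galLevels (S : Set Nat.Primes)) ρ) {v : Nat.Primes}
    (hv : v ∈ S) :
    loc₂ T ρ (map₂ (galLevels_mono (Finset.coe_subset.mpr hST)) (IsEquivariant.id ρ) x)
      ⟨v, hST hv⟩ = loc₂ S ρ x ⟨v, hv⟩ := by
  obtain ⟨z, rfl⟩ := cl₂_surjective x
  rfl

/-- **Splitting off the part coming from `S`**: a cochain at `T` with coboundary, value at `1` and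
values on inertia outside `S` in the image of `j` is `j ∘ x`, `x` a cochain at `T`, up to a cochain
at `S`; and `x` inverts `j` where the cochain lies in the image. -/
lemma exists_split {B : Type} [AddCommGroup B] [Module (ZMod p) B] [FiniteDimensional (ZMod p) B]
    {σ : Representation (ZMod p) Γℚ B} {S T : Finset Nat.Primes} {j : M →ₗ[ZMod p] B}
    (hj : IsEquivariant ρ σ (MonoidHom.id Γℚ) j) (hinj : Function.Injective j)
    (hsm : IsSmooth (galLevels (S : Set Nat.Primes)) σ) {f : Γℚ → B}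
    (hf : (galLevels (T : Set Nat.Primes)).IsLC₁ f) (hdf : ∀ g h, d₁ σ f g h ∈ LinearMap.range j)
    (hf1 : f 1 ∈ LinearMap.range j)
    (hfI : ∀ v ∈ T, v ∉ S → ∀ τ ∈ inert v, f τ ∈ LinearMap.range j) :
    ∃ x : Γℚ → M, (galLevels (T : Set Nat.Primes)).IsLC₁ x ∧
      (galLevels (S : Set Nat.Primes)).IsLC₁ (fun g => f g - j (x g)) ∧
      ∀ g m, f g = j m → x g = m := by
  obtain ⟨r, hr⟩ := j.exists_leftInverse_of_injective (LinearMap.ker_eq_bot.mpr hinj)
  have hrj : ∀ m, r (j m) = m := fun m => LinearMap.congr_fun hr m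
  set Q := LinearMap.range j
  have hQ : ∀ g, Q ≤ Q.comap (σ g) := fun g => by
    rintro _ ⟨m, rfl⟩
    exact ⟨ρ g m, hj g m⟩
  set σQ := quotRep σ Q hQ
  let sec : B ⧸ Q →ₗ[ZMod p] B := Q.liftQ (LinearMap.id - j.comp r) (by
    rintro _ ⟨m, rfl⟩
    simp [hrj])
  -- the projection to the quotient by the image descends to `S`
  have hq : (galLevels (S : Set Nat.Primes)).IsLC₁ fun g =>
      (Submodule.Quotient.mk (f g) : B ⧸ Q) := by
    refine isLC₁_descend (ρ := σQ) (T := (T : Set Nat.Primes)) ?_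
      (hf.comp fun b => (Submodule.Quotient.mk b : B ⧸ Q)) ?_ fun v hv hv' τ hτ => ?_
    · intro b
      induction b using Submodule.Quotient.induction_on with
      | H b =>
        obtain ⟨N, hN, hfix⟩ := hsm b
        exact ⟨N, hN, fun s hs => congrArg Submodule.Quotient.mk (hfix s hs)⟩
    · have h0 : d₁ σQ (fun g => (Submodule.Quotient.mk (f g) : B ⧸ Q)) = fun _ _ => 0 :=
        funext₂ fun g h => by
          change (Submodule.Quotient.mk (d₁ σ f g h) : B ⧸ Q) = 0
          exact (Submodule.Quotient.mk_eq_zero _).mpr (hdf g h)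
      rw [h0]
      exact Levels.IsLC₂.const 0
    · rw [(Submodule.Quotient.mk_eq_zero _).mpr (hfI v hv hv' τ hτ),
        (Submodule.Quotient.mk_eq_zero _).mpr hf1]
  refine ⟨fun g => r (f g), hf.comp r, ?_, fun g m h => by simp [h, hrj]⟩
  exact hq.comp sec

section Linked

variable {K : IntermediateField ℚ ℚbar} [FiniteDimensional ℚ K] [Normal ℚ K]
  (hT : IsAdmissible p K T) (hL : Linked p K T) (h2 : 2 < p) (hST : S ⊆ T)
  (hK : UnramOutside (S : Set Nat.Primes) K) (D : DualPair S ρ ρ') (hρ : Factors K ρ)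

variable (ρ S T) in
/-- The cochains locally constant at `T` with coboundary locally constant at `S`. -/
private def liftSub : Submodule (ZMod p) (Γℚ → M) :=
    { carrier := {x | (galLevels (T : Set Nat.Primes)).IsLC₁ x ∧
        (galLevels (S : Set Nat.Primes)).IsLC₂ (d₁ ρ x)}
      add_mem' := fun {x y} hx hy =>
        ⟨hx.1.map₂ hy.1 (· + ·), by rw [map_add]; exact hx.2.map₂ hy.2 (· + ·)⟩
      zero_mem' := ⟨Levels.IsLC₁.const 0, by rw [map_zero]; exact Levels.IsLC₂.const 0⟩
      smul_mem' := fun c x hx =>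
        ⟨hx.1.comp (c • ·), by rw [map_smul]; exact hx.2.comp (c • ·)⟩ }

variable (ρ S T) in
/-- The class in degree two at `S` of the coboundary of a cochain in `liftSub`. -/
private def liftClass : liftSub S T ρ →ₗ[ZMod p] H2 (galLevels (S : Set Nat.Primes)) ρ :=
  (cl₂ (galLevels (S : Set Nat.Primes)) ρ).comp
    (((d₁ ρ).comp (liftSub S T ρ).subtype).codRestrict (Z2 (galLevels (S : Set Nat.Primes)) ρ)
      fun x => ⟨x.2.2, d₂_d₁ ρ x.1⟩)

/-- The classes of the coboundaries are those dying at `T`. -/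
private lemma range_liftClass (hST : S ⊆ T) :
    LinearMap.range (liftClass S T ρ) = LinearMap.ker
      (map₂ (galLevels_mono (Finset.coe_subset.mpr hST)) (IsEquivariant.id ρ)) := by
  set LS := galLevels (S : Set Nat.Primes)
  ext c
  constructor
  · rintro ⟨x, rfl⟩
    exact cl₂_eq_zero.mpr ⟨x.1, x.2.1, rfl⟩
  · intro hc
    obtain ⟨z, rfl⟩ := cl₂_surjective c
    obtain ⟨x, hx, hxz⟩ := cl₂_eq_zero.mp hc
    have hxz' : d₁ ρ x = z.1 := hxz
    exact ⟨⟨x, hx, hxz'.symm ▸ z.2.1⟩, congrArg (cl₂ LS ρ) (Subtype.ext hxz')⟩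

include hST D in
/-- The class at `S` of a coboundary vanishes exactly when the ramification of the cochain is that
of a global cocycle. -/
private lemma ker_liftClass : LinearMap.ker (liftClass S T ρ) = LinearMap.ker
    ((ramGlob ρ S T).mkQ.comp ((ramTot (M := M) (p := p) S T).comp (liftSub S T ρ).subtype)) := by
  classical
  have hST' : (S : Set Nat.Primes) ⊆ T := Finset.coe_subset.mpr hST
  set Φ := (ramTot (M := M) (p := p) S T).comp (liftSub S T ρ).subtype
  ext x
  rw [LinearMap.mem_ker, LinearMap.mem_ker, LinearMap.comp_apply (ramGlob ρ S T).mkQ,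
    Submodule.mkQ_apply, Submodule.Quotient.mk_eq_zero]
  constructor
  · intro h
    obtain ⟨u, hu, hux⟩ := cl₂_eq_zero.mp h
    have hux' : d₁ ρ u = d₁ ρ x.1 := hux
    refine ⟨x.1 - u, ⟨x.2.1.map₂ ((galLevels_mono hST').isLC₁ hu) (· - ·), ?_⟩, ?_⟩
    · rw [map_sub, hux', sub_self]
    · refine funext₂ fun v τ => ?_
      obtain ⟨_, ⟨F, -, -, hFu, rfl⟩, hLC⟩ := hu
      have h1 := hLC 1 τ (hFu v (notMem_diff v) _ (placeAt_spec _) τ.2)
      rw [one_mul] at h1
      change x.1 τ - u τ - (x.1 1 - u 1) = x.1 τ - x.1 1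
      rw [h1]
      abel
  · rintro ⟨y, hy, hyx⟩
    have hdy : d₁ ρ (x.1 - y) = d₁ ρ x.1 := by rw [map_sub, hy.2, sub_zero]
    refine cl₂_eq_zero.mpr ⟨x.1 - y, ?_, hdy⟩
    refine isLC₁_descend D.smooth (T := (T : Set Nat.Primes)) (x.2.1.map₂ hy.1 (· - ·))
      (by rw [hdy]; exact x.2.2) fun v hv hv' τ hτ => ?_
    have h := congrFun (congrFun hyx ⟨v, Finset.mem_sdiff.mpr ⟨hv, hv'⟩⟩) ⟨τ, hτ⟩
    change y τ - y 1 = x.1 τ - x.1 1 at h
    simp only [Pi.sub_apply]
    linear_combination (norm := abel) -h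

include h2 D in
/-- The ramification of a cochain is that of local classes. -/
private lemma ramTot_mem_range (x : liftSub S T ρ) :
    ramTot (M := M) (p := p) S T x.1 ∈ LinearMap.range (ramLoc D.smooth T) := by
  classical
  set LS := galLevels (S : Set Nat.Primes)
  have hz : d₁ ρ x.1 ∈ Z2 LS ρ := ⟨x.2.2, d₂_d₁ ρ x.1⟩
  choose u hu huI hdu using fun v : ↥(T \ S) =>
    exists_unram_bound h2 D.smooth hz (notMem_diff v)
  refine ⟨fun v : ↥(T \ S) => cl₁ (glev (decAt (v : Nat.Primes)).subtype)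
    (repAt (v : Nat.Primes) ρ) ⟨fun g => x.1 g - u v g,
      ((locHom (T : Set Nat.Primes) (v : Nat.Primes)).isLC₁ x.2.1).map₂ (hu v) (· - ·), ?_⟩,
    funext₂ fun v τ => ?_⟩
  · change d₁ (repAt (v : Nat.Primes) ρ) ((fun g : decAt (v : Nat.Primes) => x.1 g) - u v) = 0
    rw [map_sub, hdu, sub_eq_zero]
    rfl
  · change x.1 τ - u v ⟨τ, mem_decAt_of_inertia τ.2⟩ = x.1 τ - x.1 1
    have h1 := congrFun (congrFun (hdu v) 1) 1
    simp only [d₁_apply, mul_one, map_one, Module.End.one_apply, OneMemClass.coe_one,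
      sub_self, zero_add] at h1
    rw [huI, h1]

include hT hST hK D hρ in
/-- Local classes have the ramification of a cochain. -/
private lemma exists_ramTot_eq (c : P1 (T \ S) ρ) :
    ∃ x : liftSub S T ρ, ramTot (M := M) (p := p) S T x.1 = ramLoc D.smooth T c := by
  classical
  set LS := galLevels (S : Set Nat.Primes)
  choose b hb using fun v : ↥(T \ S) =>
    cl₁_surjective (L := glev (decAt (v : Nat.Primes)).subtype) (c v)
  -- realise the ramification over a capitulation field and split off the part from `S`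
  obtain ⟨K'', _, _, hle, hK'', hcap⟩ := exists_capField hK D.mem (T \ S)
  have hj := coordEmb_equivariant hρ
  set j := coordEmb K ρ
  obtain ⟨y, hy⟩ := exists_realize hT hST D.mem hK hle hK'' hcap
    fun v => mapZ1 (IsLevelsHom.id _) (DualPair.equivariantAt hj (v : Nat.Primes)) (b v)
  set j'' := (pullInd p _ hle).comp j with hj''def
  have hj'' : IsEquivariant ρ (indK p K'' _) (MonoidHom.id Γℚ) j'' := fun g m => by
    rw [hj''def, LinearMap.comp_apply, LinearMap.comp_apply, hj g m]
    exact pullInd_equivariant hle g _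
  have hinj : Function.Injective j'' := (pullInd_injective hle).comp coordEmb_injective
  have hsm : IsSmooth LS (indK p K'' (Fin (Module.finrank (ZMod p) M))) :=
    isSmooth_indRep (exists_galLevel_le K'' hK'') (isSmooth_trivial _)
  obtain ⟨x, hxT, hxS, hx⟩ := exists_split hj'' hinj hsm y.2.1
    (fun g h => by rw [y.2.2]; exact zero_mem _) (by rw [Z1_one y.2]; exact zero_mem _)
    fun v hv hv' τ hτ => ⟨_, (hy ⟨v, Finset.mem_sdiff.mpr ⟨hv, hv'⟩⟩ ⟨τ, hτ⟩).symm⟩
  have hd : LS.IsLC₂ (d₁ ρ x) := by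
    obtain ⟨r, hr⟩ := j''.exists_leftInverse_of_injective (LinearMap.ker_eq_bot.mpr hinj)
    have h := (isLC₂_d₁ hsm hxS).comp fun b => r (-b)
    have e : (fun g g' => r (-(d₁ (indK p K'' _) (fun g => y.1 g - j'' (x g)) g g'))) =
        d₁ ρ x := by
      funext g g'
      have e1 : d₁ (indK p K'' _) (fun g => y.1 g - j'' (x g)) g g' = -j'' (d₁ ρ x g g') := by
        have e2 := congrFun (congrFun y.2.2 g) g'
        simp only [d₁_apply, Pi.zero_apply] at e2
        simp only [d₁_apply, map_add, map_sub, show j'' (ρ g (x g')) = indK p K'' _ g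
          (j'' (x g')) from hj'' g _]
        linear_combination (norm := abel) e2
      rw [e1, neg_neg]
      exact LinearMap.congr_fun hr _
    rw [e] at h
    exact h
  refine ⟨⟨x, hxT, hd⟩, funext₂ fun v τ => ?_⟩
  change x τ - x 1 = ramv (inertTriv D.smooth (notMem_diff v)) (c v) τ
  rw [← hb v, ramv_cl₁, hx τ _ (hy v τ), hx 1 0 (by rw [Z1_one y.2, map_zero]), sub_zero]
  rfl

include hT hL h2 hST hK D hρ

omit hL in
/-- The classes dying at `T` match the cokernel of the global ramification map inside the local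
ramifications. -/
theorem finrank_ker_infl₂ :
    FiniteDimensional (ZMod p) (LinearMap.ker
      (map₂ (galLevels_mono (Finset.coe_subset.mpr hST)) (IsEquivariant.id ρ))) ∧
    Module.finrank (ZMod p) (LinearMap.ker
        (map₂ (galLevels_mono (Finset.coe_subset.mpr hST)) (IsEquivariant.id ρ))) +
        Module.finrank (ZMod p) (ramGlob ρ S T) =
      Module.finrank (ZMod p) (LinearMap.range (ramLoc D.smooth T)) := by
  classical
  set ψ := liftClass S T ρ
  let Φ : liftSub S T ρ →ₗ[ZMod p] RamSp (M := M) S T :=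
    (ramTot (M := M) (p := p) S T).comp (liftSub S T ρ).subtype
  set infl₂ := map₂ (galLevels_mono (Finset.coe_subset.mpr hST)) (IsEquivariant.id ρ)
  have hψ : LinearMap.range ψ = LinearMap.ker infl₂ := range_liftClass hST
  set q := (ramGlob ρ S T).mkQ.comp Φ
  have hker : LinearMap.ker ψ = LinearMap.ker q := ker_liftClass hST D
  have hΦ : LinearMap.range Φ = LinearMap.range (ramLoc D.smooth T) := by
    refine le_antisymm ?_ ?_
    · rintro _ ⟨x, rfl⟩
      exact ramTot_mem_range h2 D x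
    · rintro _ ⟨c, rfl⟩
      obtain ⟨x, hx⟩ := exists_ramTot_eq hT hST hK D hρ c
      exact ⟨x, hx⟩
  have := finite_range_ramLoc (T := T) D h2
  have hq : LinearMap.range q = (LinearMap.range (ramLoc D.smooth T)).map (ramGlob ρ S T).mkQ := by
    rw [← hΦ, ← LinearMap.range_comp]
  set e : LinearMap.ker infl₂ ≃ₗ[ZMod p] LinearMap.range q :=
    (LinearEquiv.ofEq _ _ hψ.symm).trans (ψ.quotKerEquivRange.symm.trans
      ((Submodule.quotEquivOfEq _ _ hker).trans q.quotKerEquivRange))
  have : FiniteDimensional (ZMod p) (LinearMap.range q) := by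
    rw [hq]
    infer_instance
  refine ⟨Module.Finite.equiv e.symm, ?_⟩
  rw [e.finrank_eq, hq]
  have h1 := ((ramGlob ρ S T).mkQ.comp
    (LinearMap.range (ramLoc D.smooth T)).subtype).finrank_range_add_finrank_ker
  rw [LinearMap.range_comp, Submodule.range_subtype, LinearMap.ker_comp, Submodule.ker_mkQ,
    (Submodule.comapSubtypeEquivOfLe (ramGlob_le D.smooth)).finrank_eq] at h1
  exact h1

omit hL in
/-- The locally trivial classes at `T` lift to locally trivial classes at `S`. -/
theorem exists_lift (c : H2 (galLevels (T : Set Nat.Primes)) ρ) (hc : loc₂ T ρ c = 0) :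
    ∃ c₀ : H2 (galLevels (S : Set Nat.Primes)) ρ, loc₂ S ρ c₀ = 0 ∧
      map₂ (galLevels_mono (Finset.coe_subset.mpr hST)) (IsEquivariant.id ρ) c₀ = c := by
  classical
  obtain ⟨z, rfl⟩ := cl₂_surjective c
  have hj := coordEmb_equivariant hρ
  set j := coordEmb K ρ
  -- in the induced module the class bounds at `T`, by `η`
  have h0 : map₂ (IsLevelsHom.id (galLevels (T : Set Nat.Primes))) hj
      (cl₂ (galLevels (T : Set Nat.Primes)) ρ z) = 0 := by
    refine loc₂_indK_injective hT h2 ?_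
    rw [loc₂_map hj, hc, map_zero, map_zero]
  rw [map₂_cl₂] at h0
  obtain ⟨η, hη, hdη⟩ := cl₂_eq_zero.mp h0
  have hdη' : ∀ g h, d₁ (indK p K _) η g h = j (z.1 g h) := fun g h =>
    congrFun (congrFun hdη g) h
  -- at each new prime `η` differs from a local bound by a local cocycle
  have hloc : ∀ v : ↥(T \ S), ∃ u : decAt (v : Nat.Primes) → M,
      (glev (decAt (v : Nat.Primes)).subtype).IsLC₁ u ∧
      d₁ (repAt (v : Nat.Primes) ρ) u = fun g h : decAt (v : Nat.Primes) => z.1 g h := fun v => by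
    obtain ⟨u, hu, hdu⟩ :=
      cl₂_eq_zero.mp (congrFun hc ⟨(v : Nat.Primes), (Finset.mem_sdiff.mp v.2).1⟩)
    exact ⟨u, hu, hdu⟩
  choose u hu hdu using hloc
  have hb : ∀ v : ↥(T \ S), (fun g : decAt (v : Nat.Primes) => η g - j (u v g)) ∈
      Z1 (glev (decAt (v : Nat.Primes)).subtype) (repAt (v : Nat.Primes) (indK p K _)) :=
        fun v => by
    refine ⟨((locHom (T : Set Nat.Primes) (v : Nat.Primes)).isLC₁ hη).map₂ ((hu v).comp j) (· - ·),
      funext₂ fun g h => ?_⟩
    have e1 := congrFun (congrFun (hdu v) g) h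
    have e2 := hdη' g h
    simp only [d₁_apply] at e1 e2
    rw [← e1, map_add, map_sub] at e2
    simp only [d₁_apply, map_sub, Subgroup.coe_mul, Pi.zero_apply]
    rw [show j (repAt (v : Nat.Primes) ρ g (u v h)) = indK p K _ (g : Γℚ) (j (u v h)) from
      hj (g : Γℚ) _] at e2
    change indK p K _ (g : Γℚ) (η h) - indK p K _ (g : Γℚ)
      (j (u v h)) - (η (g * h) - j (u v (g * h))) +
      (η g - j (u v g)) = 0
    linear_combination (norm := abel) e2
  obtain ⟨K'', _, _, hle, hK'', hcap⟩ := exists_capField hK D.mem (T \ S)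
  obtain ⟨y, hy⟩ := exists_realize hT hST D.mem hK hle hK'' hcap fun v => ⟨_, hb v⟩
  set P := pullInd p (Fin (Module.finrank (ZMod p) M)) hle
  set j'' := P.comp j with hj''def
  have hj'' : IsEquivariant ρ (indK p K'' _) (MonoidHom.id Γℚ) j'' := fun g m => by
    rw [hj''def, LinearMap.comp_apply, LinearMap.comp_apply, hj g m]
    exact pullInd_equivariant hle g _
  have hinj : Function.Injective j'' := (pullInd_injective hle).comp coordEmb_injective
  have hsm : IsSmooth (galLevels (S : Set Nat.Primes))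
      (indK p K'' (Fin (Module.finrank (ZMod p) M))) :=
    isSmooth_indRep (exists_galLevel_le K'' hK'') (isSmooth_trivial _)
  -- subtracting a global cocycle with that ramification makes `η` unramified outside `S` modulo `M`
  set η' : Γℚ → IndK p K'' (Fin (Module.finrank (ZMod p) M)) := fun g => P (η g) - y.1 g with hη'
  have hdη'' : ∀ g h, d₁ (indK p K'' _) η' g h = j'' (z.1 g h) := fun g h => by
    have e2 := congrArg P (hdη' g h)
    have e3 := congrFun (congrFun y.2.2 g) h
    simp only [d₁_apply, map_add, map_sub, Pi.zero_apply] at e2 e3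
    rw [show P (indK p K _ g (η h)) = indK p K'' _ g (P (η h)) from
      pullInd_equivariant hle g _] at e2
    simp only [hη', d₁_apply, map_sub]
    rw [hj''def, LinearMap.comp_apply, ← e2]
    linear_combination (norm := abel) -e3
  have hη1 : η 1 = j (z.1 1 1) := by
    have := hdη' 1 1
    simp only [d₁_apply, mul_one, map_one, Module.End.one_apply, sub_self, zero_add] at this
    exact this
  obtain ⟨x, hxT, hxS, -⟩ := exists_split hj'' hinj hsm
    ((hη.comp P).map₂ y.2.1 (· - ·)) (fun g h => ⟨_, (hdη'' g h).symm⟩)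
    ⟨z.1 1 1, by change P (j (z.1 1 1)) = P (η 1) - y.1 1; rw [hη1, Z1_one y.2, sub_zero]⟩
    fun v hv hv' τ hτ => ⟨u ⟨v, Finset.mem_sdiff.mpr ⟨hv, hv'⟩⟩ ⟨τ, mem_decAt_of_inertia hτ⟩, by
      change P (j _) = P (η τ) - y.1 τ
      rw [hy ⟨v, Finset.mem_sdiff.mpr ⟨hv, hv'⟩⟩ ⟨τ, hτ⟩]
      change P (j _) = P (η τ) - P (η τ - j _)
      rw [map_sub, sub_sub_cancel]⟩
  obtain ⟨r, hr⟩ := j''.exists_leftInverse_of_injective (LinearMap.ker_eq_bot.mpr hinj)
  have hkey : ∀ g h, d₁ (indK p K'' _) (fun g => η' g - j'' (x g)) g h =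
      j'' (z.1 g h - d₁ ρ x g h) := fun g h => by
    rw [map_sub j'', ← hdη'' g h]
    simp only [d₁_apply, map_sub, map_add, show j'' (ρ g (x h)) = indK p K'' _ g (j'' (x h)) from
      hj'' g _]
    abel
  have hz0 : z.1 - d₁ ρ x ∈ Z2 (galLevels (S : Set Nat.Primes)) ρ := by
    refine ⟨?_, by rw [map_sub, z.2.2, d₂_d₁, sub_zero]⟩
    have h := (isLC₂_d₁ hsm hxS).comp fun b => r b
    have e : (fun g g' => r (d₁ (indK p K'' _) (fun g => η' g - j'' (x g)) g g')) =
        z.1 - d₁ ρ x := funext₂ fun g g' => by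
      rw [hkey]
      exact LinearMap.congr_fun hr _
    rw [e] at h
    exact h
  -- the corrected cocycle lives at `S` and is cohomologous to the class at `T`
  have himg : map₂ (galLevels_mono (Finset.coe_subset.mpr hST)) (IsEquivariant.id ρ)
      (cl₂ (galLevels (S : Set Nat.Primes)) ρ ⟨_, hz0⟩) =
        cl₂ (galLevels (T : Set Nat.Primes)) ρ z := by
    rw [map₂_cl₂, cl₂_eq_iff]
    refine ⟨fun g => -x g, hxT.comp Neg.neg, ?_⟩
    rw [show (fun g => -x g) = -x from rfl, map_neg]
    funext g h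
    change -d₁ ρ x g h = z.1 g h - d₁ ρ x g h - z.1 g h
    abel
  refine ⟨_, funext fun v => ?_, himg⟩
  rw [← loc₂_infl hST _ v.2, himg, hc]
  rfl

end Linked

/-- **Duality of the locally trivial classes** at an arbitrary finite set of primes. -/
theorem finrank_sha (h2 : 2 < p) (D : DualPair S ρ ρ') :
    FiniteDimensional (ZMod p) (LinearMap.ker (loc₁ S ρ')) ∧
    FiniteDimensional (ZMod p) (LinearMap.ker (loc₂ S ρ)) ∧
    Module.finrank (ZMod p) (LinearMap.ker (loc₂ S ρ)) =
      Module.finrank (ZMod p) (LinearMap.ker (loc₁ S ρ')) := by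
  classical
  obtain ⟨_, ⟨E, hEf, hEn, hEu, rfl⟩, hfix⟩ := D.smooth.exists_fix_all
  obtain ⟨F, ζ, hF, hFn, hζ, -, hFfix⟩ := exists_zetaField p
  set K : IntermediateField ℚ ℚbar := E ⊔ F
  have : Normal ℚ K := @IntermediateField.normal_sup _ _ _ _ _ E F hEn hFn
  have hζK : ∃ z : K, IsPrimitiveRoot z p :=
    ⟨IntermediateField.inclusion le_sup_right ζ,
      hζ.map_of_injective (IntermediateField.inclusion (le_sup_right : F ≤ K)).toRingHom.injective⟩
  have hK : UnramOutside (S : Set Nat.Primes) K := hEu.sup fun q hq A hA σ hσ =>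
    (hFfix σ).mpr (cycChar_eq_one_of_mem_inertia q.2 (fun h => hq (by
      rw [show q = pPrime p from Subtype.ext h]; exact D.mem)) hA hσ)
  -- a linked set `T ⊇ S` for a field `K` splitting `M`
  obtain ⟨T, hST, hT, hL⟩ := exists_linked h2 hζK S
  have hρ : Factors K ρ := fun n hn => LinearMap.ext fun m =>
    hfix n (IntermediateField.fixingSubgroup_le le_sup_left hn) m
  set D' := D.mono hST
  have hρ' := D'.factors' hT hρ
  have := finite_H1_of_factors hT hL h2 D'.flip hρ'
  have := finite_H1_S (ρ := ρ') hST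
  have := finite_H2_of_factors hT hL h2 D' hρ
  obtain ⟨hfin, hker⟩ := finrank_ker_infl₂ hT h2 hST hK D hρ
  set infl₂ := map₂ (galLevels_mono (Finset.coe_subset.mpr hST)) (IsEquivariant.id ρ)
  have hle : LinearMap.ker infl₂ ≤ LinearMap.ker (loc₂ S ρ) := fun c hc => by
    refine LinearMap.mem_ker.mpr (funext fun v => ?_)
    rw [← loc₂_infl hST c v.2, show infl₂ c = 0 from hc, map_zero]
    rfl
  have himg : (LinearMap.ker (loc₂ S ρ)).map infl₂ = LinearMap.ker (loc₂ T ρ) := by
    refine le_antisymm ?_ fun c hc => ?_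
    · rintro _ ⟨c, hc, rfl⟩
      refine LinearMap.mem_ker.mpr (funext fun v => ?_)
      by_cases hv : (v : Nat.Primes) ∈ S
      · rw [loc₂_infl hST c hv, show loc₂ S ρ c = 0 from hc]
        rfl
      · obtain ⟨z, rfl⟩ := cl₂_surjective c
        obtain ⟨u, hu, -, hdu⟩ := exists_unram_bound h2 D.smooth z.2 (fun h => hv h)
        exact cl₂_eq_zero.mpr ⟨u, hu, hdu⟩
    · obtain ⟨c₀, hc₀, rfl⟩ := exists_lift hT h2 hST hK D hρ c hc
      exact ⟨c₀, hc₀, rfl⟩
  -- inflation maps `Ш²` at `S` onto `Ш²` at `T`; count the kernel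
  let f := infl₂.comp (LinearMap.ker (loc₂ S ρ)).subtype
  have hrf : LinearMap.range f = LinearMap.ker (loc₂ T ρ) := by
    rw [LinearMap.range_comp, Submodule.range_subtype, himg]
  let ef : LinearMap.ker f ≃ₗ[ZMod p] LinearMap.ker infl₂ :=
    (LinearEquiv.ofEq _ _ (LinearMap.ker_comp _ _)).trans (Submodule.comapSubtypeEquivOfLe hle)
  have : FiniteDimensional (ZMod p) (LinearMap.ker f) := Module.Finite.equiv ef.symm
  have : FiniteDimensional (ZMod p) (LinearMap.ker (loc₂ S ρ) ⧸ LinearMap.ker f) :=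
    Module.Finite.equiv f.quotKerEquivRange.symm
  have hfin₂ : FiniteDimensional (ZMod p) (LinearMap.ker (loc₂ S ρ)) :=
    Module.Finite.of_submodule_quotient (LinearMap.ker f)
  refine ⟨inferInstance, hfin₂, ?_⟩
  have e1 := f.finrank_range_add_finrank_ker
  rw [hrf, ef.finrank_eq, finrank_sha_eq hT hL h2 D' hρ] at e1
  have e2 := finrank_ramGlob_add hT hL h2 hST D hρ
  omega

end Fermat.CFT.Sha
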