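import Fermat.Agent.CFT.Global.GWLinked

/-!
# Local classes of degree one at a linked set

The alternating sum of the local dimensions over a linked set is minus the dimension of the module,
and the global classes form a maximal isotropic subspace of the local ones.
-/

set_option autoImplicit false

noncomputable section

open Fermat.CFT.Coh
open scoped Pointwise

namespace Fermat.CFT

local notation "ℚbar" => AlgebraicClosure ℚ
local notation "Γℚ" => (AlgebraicClosure ℚ ≃ₐ[ℚ] AlgebraicClosure ℚ)

variable {p : ℕ} [hp : Fact p.Prime] {K : IntermediateField ℚ ℚbar} [FiniteDimensional ℚ K]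
  [Normal ℚ K] {T : Finset Nat.Primes}
  {M M' : Type} [AddCommGroup M] [Module (ZMod p) M] [FiniteDimensional (ZMod p) M]
  [AddCommGroup M'] [Module (ZMod p) M'] [FiniteDimensional (ZMod p) M']
  {ρ : Representation (ZMod p) Γℚ M} {ρ' : Representation (ZMod p) Γℚ M'}

omit [FiniteDimensional (ZMod p) M] [FiniteDimensional (ZMod p) M'] in
/-- The two members of a dual pair have the same dimension. -/
lemma DualPair.finrank_eq (D : DualPair T ρ ρ') :
    Module.finrank (ZMod p) M = Module.finrank (ZMod p) M' :=
  (LinearEquiv.ofBijective D.P D.bij).finrank_eq.trans Subspace.dual_finrank_eq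

/-- The fixed vectors of complex conjugation in a pair have complementary dimensions. -/
lemma DualPair.finrank_conjFix_add (D : DualPair T ρ ρ') (h2 : 2 < p) :
    Module.finrank (ZMod p) (conjFix ρ) + Module.finrank (ZMod p) (conjFix ρ') =
      Module.finrank (ZMod p) M := by
  refine le_antisymm (D.finrank_conjFix_add_le h2) ?_
  have hle : Devissage.perp D.P (conjFix ρ) ≤ conjFix ρ' := fun f hf => by
    refine mem_conjFix.mpr (D.eq_of_forall fun m => ?_)
    have hcc : ρ complexConjugation (ρ complexConjugation m) = m := by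
      rw [← Module.End.mul_apply, ← map_mul, complexConjugation_mul_self, map_one,
        Module.End.one_apply]
    have h1 : D.P (m + ρ complexConjugation m) f = 0 :=
      Devissage.mem_perp.mp hf _ (mem_conjFix.mpr (by rw [map_add, hcc, add_comm]))
    have h3 := D.isPairing complexConjugation (ρ complexConjugation m) f
    rw [hcc, charRep_apply, Fermat.CFT.cycloChar_complexConjugation, neg_one_mul] at h3
    rw [map_add, LinearMap.add_apply, add_eq_zero_iff_eq_neg] at h1
    exact h3.trans h1.symm
  have h1 := Devissage.finrank_perp D.bij (conjFix ρ)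
  have h3 := Submodule.finrank_mono hle
  omega

/-- The sum of the local dimensions of invariants. -/
lemma finrank_P0 : Module.finrank (ZMod p) (P0 T ρ) =
    ∑ v : T, Module.finrank (ZMod p) (H0 (repAt (v : Nat.Primes) ρ)) :=
  Module.finrank_pi_fintype (ZMod p)

/-- The local groups of degree two have the dimensions of the local invariants of the dual. -/
lemma DualPair.finrank_P2 (D : DualPair T ρ ρ') (h2 : 2 < p) :
    Module.finrank (ZMod p) (P2 T ρ) =
      ∑ v : T, Module.finrank (ZMod p) (H0 (repAt (v : Nat.Primes) ρ')) := by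
  have := fun v : T => D.finite_LH2 h2 (v : Nat.Primes)
  have : ∀ v : T, Module.Free (ZMod p) (LH2 (v : Nat.Primes) ρ) := fun v => inferInstance
  exact (Module.finrank_pi_fintype (ZMod p)
    (M := fun v : T => LH2 (v : Nat.Primes) ρ)).trans
      (Finset.sum_congr rfl fun v _ => D.finrank_LH2 h2 v)

section Additive

variable {A B C : Type} [AddCommGroup A] [Module (ZMod p) A] [AddCommGroup B] [Module (ZMod p) B]
  [AddCommGroup C] [Module (ZMod p) C] [FiniteDimensional (ZMod p) A] [FiniteDimensional (ZMod p) B]
  [FiniteDimensional (ZMod p) C] {ρA : Representation (ZMod p) Γℚ A}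
  {ρB : Representation (ZMod p) Γℚ B} {ρC : Representation (ZMod p) Γℚ C}

open DualPair

omit [FiniteDimensional (ZMod p) A] in
/-- The alternating sum of the local dimensions is additive. -/
lemma finrank_P_additive (S : SES (galLevels (T : Set Nat.Primes)) ρA ρB ρC) (h2 : 2 < p)
    [FiniteDimensional (ZMod p) (P1 T ρA)] [FiniteDimensional (ZMod p) (P1 T ρB)]
    [FiniteDimensional (ZMod p) (P1 T ρC)]
    [FiniteDimensional (ZMod p) (P2 T ρA)] [FiniteDimensional (ZMod p) (P2 T ρB)]
    :
    (Module.finrank (ZMod p) (P0 T ρB) : ℤ) + Module.finrank (ZMod p) (P2 T ρB) -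
        Module.finrank (ZMod p) (P1 T ρB) =
      (Module.finrank (ZMod p) (P0 T ρA) + Module.finrank (ZMod p) (P2 T ρA) -
          Module.finrank (ZMod p) (P1 T ρA)) +
        (Module.finrank (ZMod p) (P0 T ρC) + Module.finrank (ZMod p) (P2 T ρC) -
          Module.finrank (ZMod p) (P1 T ρC)) := by
  have x0B : Function.Exact (mapP0 T S.ι_eq) (mapP0 T S.π_eq) :=
    exact_piMap (V := fun v : T => H0 (repAt (v : Nat.Primes) ρA))
      (W := fun v : T => H0 (repAt (v : Nat.Primes) ρB))
      (U := fun v : T => H0 (repAt (v : Nat.Primes) ρC)) fun v => (sesAt S v).exact₀B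
  have x1A : Function.Exact (deltaP0 S) (mapP1 T S.ι_eq) :=
    exact_piMap (V := fun v : T => H0 (repAt (v : Nat.Primes) ρC))
      (W := fun v : T => LH1 (v : Nat.Primes) ρA)
      (U := fun v : T => LH1 (v : Nat.Primes) ρB) fun v => (sesAt S v).exact₁A
  have x2A : Function.Exact (deltaP1 S) (mapP2 T S.ι_eq) :=
    exact_piMap (V := fun v : T => LH1 (v : Nat.Primes) ρC)
      (W := fun v : T => LH2 (v : Nat.Primes) ρA)
      (U := fun v : T => LH2 (v : Nat.Primes) ρB) fun v => (sesAt S v).exact₂A
  have hinj : Function.Injective (mapP0 T S.ι_eq) := fun a b h => funext fun v =>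
    (sesAt S v).ι₀_injective (congrFun h v)
  have e0B := Euler.finrank_eq_of_exact x0B
  have e0C := Euler.finrank_eq_of_exact (exactP0C S)
  have e1A := Euler.finrank_eq_of_exact x1A
  have e1B := Euler.finrank_eq_of_exact (exactP1B S)
  have e1C := Euler.finrank_eq_of_exact (exactP1C S)
  have e2A := Euler.finrank_eq_of_exact x2A
  have e2B := Euler.finrank_eq_of_exact (exactP2B S)
  rw [LinearMap.finrank_range_of_inj hinj] at e0B
  rw [LinearMap.range_eq_top.mpr (mapP2_π_surjective S h2), finrank_top] at e2B
  omega

end Additive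

variable (hT : IsAdmissible p K T) (hL : Linked p K T) (h2 : 2 < p)

include hT hL h2

/-- The ranks of localisation in degree one. -/
lemma finrank_range_loc₁_add (D : DualPair T ρ ρ') (hρ : Factors K ρ) :
    Module.finrank (ZMod p) (LinearMap.range (loc₁ T ρ)) +
        Module.finrank (ZMod p) (LinearMap.range (loc₁ T ρ')) =
      Module.finrank (ZMod p) (P0 T ρ) + Module.finrank (ZMod p) (P0 T ρ') +
        Module.finrank (ZMod p) M := by
  have hρ' := D.factors' hT hρ
  have := finite_H1_of_factors hT hL h2 D hρ
  have := finite_H1_of_factors hT hL h2 D.flip hρ'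
  have e1 := (loc₁ T ρ).finrank_range_add_finrank_ker
  have e2 := (loc₁ T ρ').finrank_range_add_finrank_ker
  have e3 := euler_char hT hL h2 hρ
  have e4 := euler_char hT hL h2 hρ'
  have e5 := Euler.finrank_H2_add hT hL h2 D hρ
  have e6 := Euler.finrank_H2_add hT hL h2 D.flip hρ'
  rw [← finrank_P0] at e5 e6
  have e7 := D.finrank_conjFix_add h2
  have e8 := D.finrank_eq
  omega

/-- The lower bound for the number of local classes of degree one. -/
lemma finrank_P1_ge (D : DualPair T ρ ρ') (hρ : Factors K ρ) :
    Module.finrank (ZMod p) (P0 T ρ) + Module.finrank (ZMod p) (P0 T ρ') +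
      Module.finrank (ZMod p) M ≤ Module.finrank (ZMod p) (P1 T ρ) := by
  have := D.finite_P1 h2
  have := D.flip.finite_P1 h2
  have e1 := finrank_range_loc₁_add hT hL h2 D hρ
  have e2 := Submodule.finrank_mono (D.range_loc₁_le h2)
  have e3 := Devissage.finrank_perp (V := P1 T ρ') (W := P1 T ρ)
    (LinearMap.flip_bijective_iff₁.mpr (D.Q₁_bijective h2)) (LinearMap.range (loc₁ T ρ'))
  have e4 : Module.finrank (ZMod p) (P1 T ρ') = Module.finrank (ZMod p) (P1 T ρ) :=
    ((LinearEquiv.ofBijective _ (D.Q₁_bijective h2)).finrank_eq.trans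
      Subspace.dual_finrank_eq).symm
  omega

/-- **The number of local classes of degree one at a linked set.** -/
theorem finrank_P1_eq (D : DualPair T ρ ρ') (hρ : Factors K ρ) :
    Module.finrank (ZMod p) (P1 T ρ) =
      Module.finrank (ZMod p) (P0 T ρ) + Module.finrank (ZMod p) (P0 T ρ') +
        Module.finrank (ZMod p) M := by
  set j := coordEmb K ρ with hjdef
  set X := coverSES (coordEmb_equivariant hρ) hT D coordEmb_injective
  have := D.finite_P1 h2
  have := D.finite_P2 h2
  have := X.DB.finite_P1 h2
  have := X.DB.finite_P2 h2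
  have := X.DC.finite_P1 h2
  have := X.DC.finite_P2 h2
  have eA := finrank_P1_ge hT hL h2 D hρ
  have eC := finrank_P1_ge hT hL h2 X.DC (factors_coverQRep (coordEmb_equivariant hρ))
  have eB := finrank_range_loc₁_add hT hL h2 X.DB factors_indK
  have e1 := Devissage.finrank_perp (LinearMap.flip_bijective_iff₁.mpr (X.DB.Q₁_bijective h2))
    (LinearMap.range (loc₁ T (indK p K (Fin (Module.finrank (ZMod p) M)))))
  rw [← range_loc₁_indK hT X.DB h2] at e1
  have e2 := finrank_P_additive X.S h2
  have fA := D.finrank_P2 h2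
  have fB := X.DB.finrank_P2 h2
  have fC := X.DC.finrank_P2 h2
  rw [← finrank_P0] at fA fB fC
  have hd := Euler.finrank_eq_of_exact X.S.exact
  rw [LinearMap.finrank_range_of_inj X.S.injective, LinearMap.range_eq_top.mpr X.S.surjective,
    finrank_top] at hd
  omega

/-- The number of local classes, prime by prime. -/
theorem sum_finrank_LH1 (D : DualPair T ρ ρ') (hρ : Factors K ρ) :
    ∑ v : T, Module.finrank (ZMod p) (LH1 (v : Nat.Primes) ρ) =
      ∑ v : T, Module.finrank (ZMod p) (H0 (repAt (v : Nat.Primes) ρ)) +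
        ∑ v : T, Module.finrank (ZMod p) (H0 (repAt (v : Nat.Primes) ρ')) +
          Module.finrank (ZMod p) M := by
  have := fun v : T => D.finite_LH1 h2 (v : Nat.Primes)
  have : ∀ v : T, Module.Free (ZMod p) (LH1 (v : Nat.Primes) ρ) := fun v => inferInstance
  rw [← finrank_P0, ← finrank_P0, ← finrank_P1_eq hT hL h2 D hρ]
  exact (Module.finrank_pi_fintype (ZMod p) (M := fun v : T => LH1 (v : Nat.Primes) ρ)).symm

end Fermat.CFT
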