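import Fermat.Agent.CFT.Sha.Duality

/-!
# The frozen local groups

The local Galois group of `ℚ_q` maps densely onto the decomposition group of a place over `q`, so
vanishing after localisation can be tested at the chosen decomposition groups; the archimedean
group has no cohomology with coefficients killed by an odd prime.
-/

set_option autoImplicit false

noncomputable section

open Fermat.CFT.Coh
open scoped Pointwise

namespace Fermat.CFT.Sha

local notation "ℚbar" => AlgebraicClosure ℚ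
local notation "Γℚ" => (AlgebraicClosure ℚ ≃ₐ[ℚ] AlgebraicClosure ℚ)

section Padic

variable (q : ℕ) [hq : Fact q.Prime]

/-- The place of the embedding into the algebraic closure of `ℚ_q` lies over `q`. -/
lemma padicPlace_liesOverPrime : (padicPlace q).LiesOverPrime q := by
  have hp1 : ‖((q : ℕ) : PadicAlgCl q)‖ < 1 := by
    rw [← map_natCast (algebraMap ℚ_[q] (PadicAlgCl q)), norm_algebraMap', Padic.norm_p]
    exact inv_lt_one_of_one_lt₀ (Nat.one_lt_cast.mpr hq.out.one_lt)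
  change (q : ℚbar) ∈ (padicPlace q).nonunits
  rw [ValuationSubring.mem_nonunits_iff]
  by_contra h
  have h0 : (q : ℚbar) ≠ 0 := Nat.cast_ne_zero.mpr hq.out.ne_zero
  have h1 : (padicPlace q).valuation (q : ℚbar)⁻¹ ≤ 1 := by
    rw [map_inv₀]
    exact inv_le_one_of_one_le₀ (not_lt.mp h)
  rw [ValuationSubring.valuation_le_one_iff, mem_padicPlace_iff, map_inv₀, map_natCast, nnnorm_inv,
    ← NNReal.coe_le_coe, NNReal.coe_inv, coe_nnnorm, NNReal.coe_one] at h1
  have hpos : (0 : ℝ) < ‖((q : ℕ) : PadicAlgCl q)‖ := by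
    refine norm_pos_iff.mpr ?_
    rw [← map_natCast (padicEmbedding q)]
    exact (_root_.map_ne_zero _).mpr h0
  exact absurd ((inv_le_one₀ hpos).mp h1) (not_le.mpr hp1)

/-- **The local Galois group is dense in the decomposition group.** -/
theorem exists_localGalois_restrict {σ : Γℚ} (hσ : σ ∈ (padicPlace q).decompositionSubgroup ℚ)
    (E : IntermediateField ℚ ℚbar) [FiniteDimensional ℚ E] [Normal ℚ E] :
    ∃ τ, (localGaloisToGlobal q τ)⁻¹ * σ ∈ E.fixingSubgroup := by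
  have : IsGalois ℚ E := qbar_isGalois_intermediate E
  set H : Subgroup (E ≃ₐ[ℚ] E) :=
    ((AlgEquiv.restrictNormalHom E).comp (localGaloisToGlobal q)).range
  have key : AlgEquiv.restrictNormalHom E σ ∈ H := by
    rw [← IntermediateField.fixingSubgroup_fixedField H, IntermediateField.mem_fixingSubgroup_iff]
    intro x hx
    -- the element lies in `ℚ_q`
    have hfix : ∀ τ : PadicAlgCl q ≃ₐ[ℚ_[q]] PadicAlgCl q,
        τ (padicEmbedding q (x : ℚbar)) = padicEmbedding q (x : ℚbar) := fun τ => by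
      rw [← padicEmbedding_localGaloisToGlobal]
      have h := hx ⟨_, τ, rfl⟩
      exact congrArg (padicEmbedding q)
        ((AlgEquiv.restrictNormal_commutes _ E x).symm.trans (congrArg Subtype.val h))
    obtain ⟨y, hy⟩ := (InfiniteGalois.mem_range_algebraMap_iff_fixed
      (padicEmbedding q (x : ℚbar))).mpr hfix
    refine Subtype.ext ((AlgEquiv.restrictNormal_commutes σ E x).trans ?_)
    change σ (x : ℚbar) = x
    refine (padicEmbedding q).toRingHom.injective (eq_of_norm_sub_le_zero ?_)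
    -- approximation by rationals
    refine le_of_forall_pos_le_add fun ε hε => ?_
    rw [zero_add]
    obtain ⟨N, hN⟩ := exists_pow_lt_of_lt_one hε
      (inv_lt_one_of_one_lt₀ (Nat.one_lt_cast (α := ℝ).mpr hq.out.one_lt))
    set c : ℝ := ((q : ℝ)⁻¹) ^ N with hc
    have hc0 : 0 < c := pow_pos (inv_pos.mpr (Nat.cast_pos.mpr hq.out.pos)) _
    obtain ⟨ε', hε'0, hε'⟩ := exists_rat_btwn hc0
    obtain ⟨r, hr⟩ := Padic.rat_dense' y (by exact_mod_cast hε'0 : (0 : ℚ) < ε')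
    have hyr : ‖y - (r : ℚ_[q])‖ ≤ c :=
      le_trans (show ‖y - (r : ℚ_[q])‖ ≤ (ε' : ℝ) from
        Rat.cast_le.mpr hr.le) hε'.le
    have hnormq : ∀ w : PadicAlgCl q, ‖w * ((q : ℕ) : PadicAlgCl q)⁻¹ ^ N‖ ≤ 1 ↔
        ‖w‖ ≤ c := fun w => by
      rw [norm_mul, norm_pow, norm_inv, ← map_natCast (algebraMap ℚ_[q] (PadicAlgCl q)),
        norm_algebraMap', Padic.norm_p, inv_inv, hc, inv_pow, ← le_div_iff₀
        (pow_pos (Nat.cast_pos.mpr hq.out.pos) _), one_div]
    set u : ℚbar := ((x : ℚbar) - (r : ℚbar)) * ((q : ℕ) : ℚbar)⁻¹ ^ N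
    have hemb : ∀ w : ℚbar, padicEmbedding q ((w - (r : ℚbar)) * ((q : ℕ) : ℚbar)⁻¹ ^ N) =
        (padicEmbedding q w - (r : PadicAlgCl q)) * ((q : ℕ) : PadicAlgCl q)⁻¹ ^ N := fun w => by
      rw [map_mul, map_sub, map_pow, map_inv₀, map_natCast, map_ratCast]
    have hu : u ∈ padicPlace q := by
      rw [mem_padicPlace_iff, ← NNReal.coe_le_coe, coe_nnnorm, NNReal.coe_one, hemb, hnormq, ← hy,
        ← map_ratCast (algebraMap ℚ_[q] (PadicAlgCl q)), ← map_sub, norm_algebraMap']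
      exact hyr
    have hσu : σ u ∈ padicPlace q := by
      have h := (ValuationSubring.smul_mem_pointwise_smul σ u (padicPlace q) hu)
      rwa [MulAction.mem_stabilizer_iff.mp hσ, AlgEquiv.smul_def] at h
    rw [mem_padicPlace_iff, ← NNReal.coe_le_coe, coe_nnnorm, NNReal.coe_one, map_mul, map_sub,
      map_pow, map_inv₀, map_natCast, map_ratCast, hemb, hnormq] at hσu
    change ‖padicEmbedding q (σ (x : ℚbar)) - padicEmbedding q (x : ℚbar)‖ ≤ ε
    refine le_trans ?_ hN.le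
    have h1 : ‖(r : PadicAlgCl q) - padicEmbedding q (x : ℚbar)‖ ≤ c := by
      rw [← hy, ← map_ratCast (algebraMap ℚ_[q] (PadicAlgCl q)), ← map_sub, norm_algebraMap',
        norm_sub_rev]
      exact hyr
    calc ‖padicEmbedding q (σ (x : ℚbar)) - padicEmbedding q (x : ℚbar)‖
        = ‖(padicEmbedding q (σ (x : ℚbar)) - (r : PadicAlgCl q)) +
            ((r : PadicAlgCl q) - padicEmbedding q (x : ℚbar))‖ := by rw [sub_add_sub_cancel]
      _ ≤ max ‖padicEmbedding q (σ (x : ℚbar)) - (r : PadicAlgCl q)‖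
            ‖(r : PadicAlgCl q) - padicEmbedding q (x : ℚbar)‖ :=
          PadicAlgCl.isNonarchimedean q _ _
      _ ≤ c := max_le hσu h1
  obtain ⟨τ, hτ⟩ := key
  refine ⟨τ, (restrict_eq_one_iff E _).mp ?_⟩
  rw [map_mul, map_inv, ← hτ]
  exact inv_mul_cancel _

end Padic

/-! ### Conjugate decomposition groups -/

variable {p : ℕ} [hp : Fact p.Prime] {M : Type} [AddCommGroup M] [Module (ZMod p) M]
  {ρ : Representation (ZMod p) Γℚ M} {S : Set Nat.Primes}

/-- The restriction of `z` to `D` is a coboundary, in degree one. -/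
def Bounds₁ (ρ : Representation (ZMod p) Γℚ M) (z : Γℚ → M) (D : Subgroup Γℚ) : Prop :=
  ∃ m, ∀ d ∈ D, ρ d m - m = z d

/-- The restriction of `z` to `D` is the coboundary of a function constant on the cosets of a level,
in degree two. -/
def Bounds₂ (ρ : Representation (ZMod p) Γℚ M) (z : Γℚ → Γℚ → M) (D : Subgroup Γℚ) : Prop :=
  ∃ u : D → M, (glev D.subtype).IsLC₁ u ∧ ∀ a b : D, d₁ (ρ.comp D.subtype) u a b = z a b

/-- Conjugation by `γ` carries the decomposition group of `γ • A` into that of `A`. -/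
lemma smul_mem_stabilizer {γ : Γℚ} {A : ValuationSubring ℚbar} {d : Γℚ}
    (hd : d ∈ (γ • A).decompositionSubgroup ℚ) : conjHom γ d ∈ A.decompositionSubgroup ℚ := by
  rw [conjHom_apply]
  refine MulAction.mem_stabilizer_iff.mpr ?_
  rw [mul_smul, mul_smul, MulAction.mem_stabilizer_iff.mp hd, inv_smul_smul]

/-- The restriction bound passes to the conjugate places. -/
lemma Bounds₁.smul (z : Z1 (galLevels S) ρ) {A : ValuationSubring ℚbar}
    (h : Bounds₁ ρ z.1 (A.decompositionSubgroup ℚ)) (γ : Γℚ) :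
    Bounds₁ ρ z.1 ((γ • A).decompositionSubgroup ℚ) := by
  obtain ⟨m, hm⟩ := h
  obtain ⟨m₀, hm₀⟩ := cl₁_eq_iff.mp
    ((map₁_cl₁ (isLevelsHom_conj (galLevels S) γ) (conj_equivariant (ρ := ρ) γ) z).symm.trans
      (map₁_conj γ (cl₁ (galLevels S) ρ z)))
  refine ⟨ρ γ m - m₀, fun d hd => ?_⟩
  have h1 := congrFun hm₀ d
  change ρ d m₀ - m₀ = ρ γ (z.1 (conjHom γ d)) - z.1 d at h1
  rw [← hm _ (smul_mem_stabilizer hd), map_sub, ← Module.End.mul_apply (ρ γ), ← map_mul,
    show γ * conjHom γ d = d * γ by rw [conjHom_apply]; group, map_mul, Module.End.mul_apply] at h1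
  rw [map_sub, show z.1 d = ρ d (ρ γ m) - ρ γ m - (ρ d m₀ - m₀) by rw [h1]; abel]
  abel

/-- Being a coboundary on a decomposition group passes to the conjugate places. -/
lemma Bounds₂.smul (z : Z2 (galLevels S) ρ)
    {A : ValuationSubring ℚbar} (h : Bounds₂ ρ z.1 (A.decompositionSubgroup ℚ)) (γ : Γℚ) :
    Bounds₂ ρ z.1 ((γ • A).decompositionSubgroup ℚ) := by
  obtain ⟨u, hu, hdu⟩ := h
  obtain ⟨w, hw, hdw⟩ := cl₂_eq_iff.mp
    ((map₂_cl₂ (isLevelsHom_conj (galLevels S) γ) (conj_equivariant (ρ := ρ) γ) z).symm.trans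
      (map₂_conj γ (cl₂ (galLevels S) ρ z)))
  let c : (γ • A).decompositionSubgroup ℚ →* A.decompositionSubgroup ℚ :=
    MonoidHom.mk' (fun d => ⟨conjHom γ d.1, smul_mem_stabilizer d.2⟩)
      fun a b => Subtype.ext (map_mul (conjHom γ) _ _)
  have hc : IsLevelsHom (glev (A.decompositionSubgroup ℚ).subtype)
      (glev ((γ • A).decompositionSubgroup ℚ).subtype) c := by
    rintro _ ⟨N, hN, rfl⟩
    refine ⟨_, ⟨N, hN, rfl⟩, fun x hx => ?_⟩
    change conjHom γ (x : Γℚ) ∈ N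
    rw [conjHom_apply]
    exact (galLevels Set.univ).conj_mem hN hx _
  have hw' : (glev ((γ • A).decompositionSubgroup ℚ).subtype).IsLC₁
      fun d : (γ • A).decompositionSubgroup ℚ => w d := by
    obtain ⟨N, hN, hN'⟩ := hw
    obtain ⟨N', hN'', hle⟩ := galLevels_mono (Set.subset_univ S) N hN
    exact ⟨_, ⟨N', hN'', rfl⟩, fun g s hs => hN' g s (hle hs)⟩
  refine ⟨fun d => ρ γ (u (c d)) - w d, ((hc.isLC₁ hu).comp (ρ γ)).map₂ hw' (· - ·),
    fun a b => ?_⟩
  have h1 := congrFun (congrFun hdw (a : Γℚ)) (b : Γℚ)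
  change d₁ ρ w (a : Γℚ) (b : Γℚ) =
    ρ γ (z.1 (conjHom γ (a : Γℚ)) (conjHom γ (b : Γℚ))) - z.1 a b at h1
  have h2 := hdu (c a) (c b)
  change _ = z.1 (conjHom γ (a : Γℚ)) (conjHom γ (b : Γℚ)) at h2
  have h3 : ρ γ (ρ (conjHom γ (a : Γℚ)) (u (c b))) = ρ (a : Γℚ) (ρ γ (u (c b))) :=
    (conj_equivariant (ρ := ρ) γ (a : Γℚ) _)
  simp only [d₁_apply] at h1 h2 ⊢
  rw [← h2] at h1
  simp only [MonoidHom.comp_apply, Subgroup.coe_subtype, map_mul c, map_add, map_sub,
    Subgroup.coe_mul] at h1 ⊢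
  rw [show ((c a : A.decompositionSubgroup ℚ) : Γℚ) = conjHom γ (a : Γℚ) from rfl, h3] at h1
  linear_combination (norm := abel) -h1

/-- The restriction bound in degree one does not depend on the place over `ℓ`. -/
lemma bounds₁_iff (z : Z1 (galLevels S) ρ) {A B : ValuationSubring ℚbar} {ℓ : ℕ} (hℓ : ℓ.Prime)
    (hA : A.LiesOverPrime ℓ) (hB : B.LiesOverPrime ℓ) :
    Bounds₁ ρ z.1 (A.decompositionSubgroup ℚ) ↔ Bounds₁ ρ z.1 (B.decompositionSubgroup ℚ) := by
  obtain ⟨γ, rfl⟩ := exists_smul_place hℓ hA hB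
  refine ⟨fun h => h.smul z γ, fun h => ?_⟩
  have := h.smul z γ⁻¹
  rwa [inv_smul_smul] at this

/-- The restriction bound in degree two does not depend on the place over `ℓ`. -/
lemma bounds₂_iff (z : Z2 (galLevels S) ρ)
    {A B : ValuationSubring ℚbar} {ℓ : ℕ} (hℓ : ℓ.Prime)
    (hA : A.LiesOverPrime ℓ) (hB : B.LiesOverPrime ℓ) :
    Bounds₂ ρ z.1 (A.decompositionSubgroup ℚ) ↔ Bounds₂ ρ z.1 (B.decompositionSubgroup ℚ) := by
  obtain ⟨γ, rfl⟩ := exists_smul_place hℓ hA hB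
  refine ⟨fun h => h.smul z γ, fun h => ?_⟩
  have := h.smul z γ⁻¹
  rwa [inv_smul_smul] at this

/-! ### Restriction along a dense map -/

variable {G : Type} [Group G] (f : G →* Γℚ) {D : Subgroup Γℚ} (hfD : ∀ g, f g ∈ D)
  (hdense : ∀ σ ∈ D, ∀ N, (galLevels Set.univ).IsLevel N → ∃ g, (f g)⁻¹ * σ ∈ N)

include hfD hdense

/-- Along a map with dense image, bounding the pullback is bounding the restriction. -/
lemma bounds₁_dense_iff (hsm : IsSmooth (galLevels S) ρ)
    (z : Z1 (galLevels S) ρ) :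
    (∃ m, ∀ g, ρ (f g) m - m = z.1 (f g)) ↔ Bounds₁ ρ z.1 D := by
  refine ⟨fun ⟨m, hm⟩ => ⟨m, fun σ hσ => ?_⟩, fun ⟨m, hm⟩ => ⟨m, fun g => hm _ (hfD g)⟩⟩
  obtain ⟨N₁, hN₁, h₁⟩ := z.2.1
  obtain ⟨N₂, hN₂, h₂⟩ := hsm m
  obtain ⟨N, hN, i1, i2⟩ := (galLevels S).exists_le N₁ N₂ hN₁ hN₂
  obtain ⟨N', hN', hle⟩ := galLevels_mono (Set.subset_univ S) N hN
  obtain ⟨g, hg⟩ := hdense σ hσ N' hN'
  have h3 : (f g)⁻¹ * σ ∈ N := hle hg
  rw [← mul_inv_cancel_left (f g) σ, h₁ _ _ (i1 h3), map_mul, Module.End.mul_apply, h₂ _ (i2 h3)]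
  exact hm g

/-- Bounding on the dense local Galois group is bounding on the decomposition group. -/
lemma bounds₂_dense_iff [FiniteDimensional (ZMod p) M] (hsm : IsSmooth (galLevels S) ρ)
    (z : Z2 (galLevels S) ρ) :
    (∃ x : G → M, ((galLevels Set.univ).comap f).IsLC₁ x ∧
      ∀ a b, d₁ (ρ.comp f) x a b = z.1 (f a) (f b)) ↔ Bounds₂ ρ z.1 D := by
  constructor
  · rintro ⟨x, ⟨_, ⟨N₀, hN₀, rfl⟩, hx⟩, hdx⟩
    obtain ⟨N₁, hN₁, h₁⟩ := z.2.1
    obtain ⟨N₂, hN₂, h₂⟩ := hsm.exists_fix_all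
    obtain ⟨N₃, hN₃, i1, i2⟩ := (galLevels S).exists_le N₁ N₂ hN₁ hN₂
    obtain ⟨N₄, hN₄, hle⟩ := galLevels_mono (Set.subset_univ S) N₃ hN₃
    obtain ⟨N, hN, i3, i4⟩ := (galLevels Set.univ).exists_le N₀ N₄ hN₀ hN₄
    have hnorm := (galLevels Set.univ).normal N hN
    choose t ht using fun d : D => hdense d d.2 N hN
    have hwd : ∀ (d : D) (g : G), (f g)⁻¹ * d ∈ N → x (t d) = x g := fun d g hg => by
      have h : f (g⁻¹ * t d) ∈ N := by
        have := mul_mem hg (inv_mem (ht d))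
        rwa [mul_inv_rev, inv_inv, mul_assoc, mul_inv_cancel_left, ← map_inv, ← map_mul] at this
      rw [← mul_inv_cancel_left g (t d)]
      exact hx g _ (i3 h)
    refine ⟨fun d => x (t d), ⟨_, ⟨N, hN, rfl⟩, fun d s hs => hwd _ _ ?_⟩, fun a b => ?_⟩
    · rw [Subgroup.coe_mul, ← mul_assoc]
      exact mul_mem (ht d) hs
    · have hab : x (t (a * b)) = x (t a * t b) := hwd _ _ (by
        rw [map_mul, Subgroup.coe_mul, show (f (t a) * f (t b))⁻¹ * ((a : Γℚ) * b) =
          ((f (t b))⁻¹ * ((f (t a))⁻¹ * a) * f (t b)) * ((f (t b))⁻¹ * b) by group]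
        exact mul_mem (by simpa using hnorm.conj_mem _ (ht a) (f (t b))⁻¹) (ht b))
      have hρ : ρ (a : Γℚ) = ρ (f (t a)) := by
        rw [← mul_inv_cancel_left (f (t a)) (a : Γℚ), map_mul,
          show ρ ((f (t a))⁻¹ * a) = 1 from
            LinearMap.ext fun m => h₂ _ (i2 (hle (i4 (ht a)))) m, mul_one]
      have hz : z.1 a b = z.1 (f (t a)) (f (t b)) := by
        conv_lhs => rw [← mul_inv_cancel_left (f (t a)) (a : Γℚ),
          ← mul_inv_cancel_left (f (t b)) (b : Γℚ)]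
        exact h₁ _ _ _ (i1 (hle (i4 (ht a)))) _ (i1 (hle (i4 (ht b))))
      rw [hz, ← hdx, d₁_apply, d₁_apply, hab]
      change ρ (a : Γℚ) _ - _ + _ = ρ (f (t a)) _ - _ + _
      rw [hρ]
  · rintro ⟨u, hu, hdu⟩
    let f' : G →* D := f.codRestrict D hfD
    have hf' : IsLevelsHom (glev D.subtype) ((galLevels Set.univ).comap f) f' := by
      rintro _ ⟨N, hN, rfl⟩
      exact ⟨_, ⟨N, hN, rfl⟩, fun x hx => hx⟩
    exact ⟨fun g => u (f' g), hf'.isLC₁ hu, fun a b => by
      rw [d₁_apply, map_mul]; exact hdu (f' a) (f' b)⟩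

omit hfD hdense

/-! ### Finite groups of order prime to `p` -/

/-- A cocycle is a coboundary on a finite group of order prime to `p`. -/
lemma bounds₁_finite [Fintype G] (hn : ((Fintype.card G : ℕ) : ZMod p) ≠ 0)
    {z : Γℚ → M} (hz : ∀ g h, z (g * h) = ρ g (z h) + z g) :
    ∃ m, ∀ g, ρ (f g) m - m = z (f g) := by
  refine ⟨-((Fintype.card G : ZMod p)⁻¹ • ∑ h, z (f h)), fun g => ?_⟩
  have e : ∑ h, z (f h) =
      ρ (f g) (∑ h, z (f h)) + ((Fintype.card G : ℕ) : ZMod p) • z (f g) := by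
    conv_lhs => rw [← Equiv.sum_comp (Equiv.mulLeft g)]
    simp only [Equiv.coe_mulLeft, map_mul, hz, Finset.sum_add_distrib, map_sum, Finset.sum_const,
      Finset.card_univ, Nat.cast_smul_eq_nsmul]
  rw [map_neg, map_smul, sub_neg_eq_add, neg_add_eq_sub, ← smul_sub]
  conv_lhs => arg 2; arg 1; rw [e]
  rw [add_sub_cancel_left, smul_smul, inv_mul_cancel₀ hn, one_smul]

/-- A finite group of order prime to `p` bounds every cocycle. -/
lemma bounds₂_finite [Fintype G] (hn : ((Fintype.card G : ℕ) : ZMod p) ≠ 0)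
    (z : Z2 (galLevels S) ρ) :
    ∃ x : G → M, ((galLevels Set.univ).comap f).IsLC₁ x ∧
      ∀ a b, d₁ (ρ.comp f) x a b = z.1 (f a) (f b) := by
  refine ⟨fun g => (Fintype.card G : ZMod p)⁻¹ • ∑ h, z.1 (f g) (f h), ?_, fun a b => ?_⟩
  · obtain ⟨N, hN, hz⟩ := z.2.1
    obtain ⟨N', hN', hle⟩ := galLevels_mono (Set.subset_univ S) N hN
    refine ⟨_, ⟨N', hN', rfl⟩, fun g s hs => congrArg _ (Finset.sum_congr rfl fun h _ => ?_)⟩
    have := hz (f g) (f h) (f s) (hle hs) 1 (one_mem _)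
    rw [mul_one] at this
    rwa [map_mul]
  · have hc : ∀ h, ρ (f a) (z.1 (f b) (f h)) - z.1 (f (a * b)) (f h) + z.1 (f a) (f (b * h)) =
        z.1 (f a) (f b) := fun h => by
      have := congrFun (congrFun (congrFun z.2.2 (f a)) (f b)) (f h)
      rw [d₂_apply, Pi.zero_apply, Pi.zero_apply, Pi.zero_apply, sub_eq_zero] at this
      rw [map_mul, map_mul]
      exact this
    have e := Finset.sum_congr rfl fun h (_ : h ∈ Finset.univ) => hc h
    have e5 : ∑ x, z.1 (f a) (f (b * x)) = ∑ h, z.1 (f a) (f h) :=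
      Equiv.sum_comp (Equiv.mulLeft b) fun h => z.1 (f a) (f h)
    rw [Finset.sum_add_distrib, Finset.sum_sub_distrib, ← map_sum, e5, Finset.sum_const,
      Finset.card_univ, ← Nat.cast_smul_eq_nsmul (ZMod p)] at e
    rw [d₁_apply, MonoidHom.comp_apply, map_smul, ← smul_sub, ← smul_add, e, smul_smul,
      inv_mul_cancel₀ hn, one_smul]

end Fermat.CFT.Sha
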