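import Fermat.Agent.CFT.Sha.Transfer

/-!
# The perfect pairing between the two `Ш`

The two groups have equal dimension by `finrank_sha` of `CFT/Sha/Duality`, carried to the frozen
groups by `CFT/Sha/Transfer`; an isomorphism with the dual is the pairing.

`exists_perfect_pairing` is S55.
-/

set_option autoImplicit false
open CategoryTheory Module groupCohomology ExtCitation
open groupCohomology

namespace Fermat.CFT.Sha

/-- For odd `p ∈ S` and a module unramified outside `S`, `Ш¹` of the dual twist and `Ш²` are in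
perfect duality. -/
theorem exists_perfect_pairing
    {p : ℕ} [Fact p.Prime] (hp2 : p ≠ 2) (S : Finset Nat.Primes) (hpS : pPrime p ∈ S)
    (M : Rep (ZMod p) (AlgebraicClosure ℚ ≃ₐ[ℚ] AlgebraicClosure ℚ))
    [FiniteDimensional (ZMod p) M]
    (hsm : ∀ m : M, ∃ F : IntermediateField ℚ (AlgebraicClosure ℚ), FiniteDimensional ℚ F ∧
      ∀ s ∈ F.fixingSubgroup, M.ρ s m = m)
    (hMur : ∀ q : Nat.Primes, q ∉ S → ∀ A : ValuationSubring (AlgebraicClosure ℚ),
      A.LiesOverPrime (q : ℕ) → ∀ g ∈ A.inertiaSubgroupIn ℚ, M.ρ g = 1) :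
    ∃ B : sha₁ S (M.dualTwist (cycloChar p)) →ₗ[ZMod p] sha₂ S M →ₗ[ZMod p] ZMod p,
      (∀ y, (∀ x, B y x = 0) → y = 0) ∧ (∀ x, (∀ y, B y x = 0) → x = 0) := by
  have h2 : 2 < p := lt_of_le_of_ne (Fact.out : p.Prime).two_le (Ne.symm hp2)
  have hs := isSmooth_of_unramified (S := S) (A := M) hsm hMur
  obtain ⟨hf1, hf2, heq⟩ :=
    finrank_sha h2 (DualPair.ofSmooth hpS hs)
  have hs' : Coh.IsSmooth (galLevels (S : Set Nat.Primes))
      (M.dualTwist (cycloChar p)).ρ := (DualPair.ofSmooth hpS hs).smooth'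
  have e1 : sha₁ S (M.dualTwist (cycloChar p)) ≃ₗ[ZMod p]
      LinearMap.ker (loc₁ S (M.dualTwist (cycloChar p)).ρ) :=
    (LinearEquiv.ofEq _ _ (sha₁_eq h2 hs')).trans
      (Submodule.equivMapOfInjective _ toH1_injective _).symm
  have e2 : sha₂ S M ≃ₗ[ZMod p] LinearMap.ker (loc₂ S M.ρ) :=
    (LinearEquiv.ofEq _ _ (sha₂_eq h2 hs)).trans
      (Submodule.equivMapOfInjective _ toH2_bijective.1 _).symm
  have : FiniteDimensional (ZMod p)
      (LinearMap.ker (loc₁ S (M.dualTwist (cycloChar p)).ρ)) := hf1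
  have : FiniteDimensional (ZMod p) (LinearMap.ker (loc₂ S M.ρ)) := hf2
  have := Module.Finite.equiv e1.symm
  have := Module.Finite.equiv e2.symm
  have hdim : finrank (ZMod p) (sha₁ S (M.dualTwist (cycloChar p))) =
      finrank (ZMod p) (Module.Dual (ZMod p) (sha₂ S M)) := by
    rw [Subspace.dual_finrank_eq, e1.finrank_eq, e2.finrank_eq]
    exact heq.symm
  let B := LinearEquiv.ofFinrankEq (sha₁ S (M.dualTwist (cycloChar p)))
    (Module.Dual (ZMod p) (sha₂ S M)) hdim
  refine ⟨B.toLinearMap, fun y hy => B.map_eq_zero_iff.mp (LinearMap.ext hy), fun x hx => ?_⟩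
  refine (Module.forall_dual_apply_eq_zero_iff (ZMod p) x).mp fun φ => ?_
  obtain ⟨y, rfl⟩ := B.surjective φ
  exact hx y

end Fermat.CFT.Sha
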