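import Fermat.Agent.CFT.Sha.Exact
import Fermat.Agent.CFT.Global.GW

/-!
# Ramification at primes outside a finite set

Restriction to inertia has the unramified classes as its kernel, a cochain without ramification
descends, and the image of the global classes in the ramification space is computed by duality.
-/

set_option autoImplicit false

noncomputable section

open Fermat.CFT.Coh
open scoped Pointwise

namespace Fermat.CFT.Sha

local notation "Γℚ" => (AlgebraicClosure ℚ ≃ₐ[ℚ] AlgebraicClosure ℚ)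

variable {p : ℕ} [hp : Fact p.Prime] {M : Type} [AddCommGroup M] [Module (ZMod p) M]
  {ρ : Representation (ZMod p) Γℚ M}

/-- The inertia group of the chosen place. -/
abbrev inert (v : Nat.Primes) : Subgroup Γℚ := (placeAt v).inertiaSubgroupIn ℚ

/-! ### Descent -/

/-- **A cochain with coboundary from `S` and no ramification outside `S` comes from `S`.** -/
theorem isLC₁_descend [FiniteDimensional (ZMod p) M] {S T : Set Nat.Primes}
    (hsm : IsSmooth (galLevels S) ρ) {f : Γℚ → M} (hf : (galLevels T).IsLC₁ f)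
    (hdf : (galLevels S).IsLC₂ (d₁ ρ f))
    (h : ∀ v ∈ T, v ∉ S → ∀ σ ∈ inert v, f σ = f 1) : (galLevels S).IsLC₁ f := by
  obtain ⟨N₁, hN₁, hfix⟩ := hsm.exists_fix_all
  obtain ⟨N₂, hN₂, hz⟩ := hdf
  obtain ⟨N, hN, i1, i2⟩ := (galLevels S).exists_le N₁ N₂ hN₁ hN₂
  have hρN : ∀ s ∈ N, ∀ m, ρ s m = m := fun s hs m => hfix s (i1 hs) m
  -- `f` is translated by elements of the common level `N`
  have hr : ∀ g, ∀ s ∈ N, f (g * s) = f g + ρ g (f s - f 1) := fun g s hs => by
    have := hz g 1 1 (one_mem _) s (i2 hs)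
    simp only [one_mul, mul_one, d₁_apply] at this
    rw [map_sub]
    linear_combination (norm := abel) -this
  have hl : ∀ s ∈ N, ∀ g, f (s * g) = f g + (f s - f 1) := fun s hs g => by
    have := hz 1 g s (i2 hs) 1 (one_mem _)
    simp only [one_mul, mul_one, d₁_apply, map_one, Module.End.one_apply, hρN s hs] at this
    linear_combination (norm := abel) -this
  -- the elements of `N` where `f` takes its value at `1`
  let H : Subgroup Γℚ :=
    { carrier := {s | s ∈ N ∧ f s = f 1}
      mul_mem' := by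
        rintro a b ⟨ha, ha'⟩ ⟨hb, hb'⟩
        exact ⟨mul_mem ha hb, by rw [hl a ha, hb', ha', sub_self, add_zero]⟩
      one_mem' := ⟨one_mem _, rfl⟩
      inv_mem' := by
        rintro a ⟨ha, ha'⟩
        refine ⟨inv_mem ha, ?_⟩
        have := hl a ha a⁻¹
        rw [mul_inv_cancel, ha', sub_self, add_zero] at this
        exact this.symm }
  obtain ⟨N', hN', hN'H⟩ := exists_level_le_of_inertia (T := S) (H := H) (by
      obtain ⟨N₃, hN₃, hf₃⟩ := hf
      obtain ⟨N₄, hN₄, h₄⟩ := galLevels_mono (Set.subset_univ T) N₃ hN₃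
      obtain ⟨N₅, hN₅, h₅⟩ := galLevels_mono (Set.subset_univ S) N hN
      obtain ⟨N₆, hN₆, j4, j5⟩ := (galLevels Set.univ).exists_le N₄ N₅ hN₄ hN₅
      refine ⟨N₆, hN₆, fun g hg => ⟨h₅ (j5 hg), ?_⟩⟩
      have := hf₃ 1 g (h₄ (j4 hg))
      rwa [one_mul] at this)
    -- inertia outside `S` lies in this subgroup
    fun q hq A hA σ hσ => by
      obtain ⟨E, -, -, hEu, hNE⟩ := hN
      have hσN : σ ∈ N := hNE ▸ hEu q hq A hA hσ
      refine ⟨hσN, ?_⟩
      by_cases hq' : q ∈ T
      · obtain ⟨g, hg⟩ := exists_smul_place q.2 hA (placeAt_spec q)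
        have hτ : g * σ * g⁻¹ ∈ inert q := by
          change g * σ * g⁻¹ ∈ (placeAt q).inertiaSubgroupIn ℚ
          exact hg ▸ mem_inertiaSubgroupIn_smul q.2 hA hσ g
        have hτN : g * σ * g⁻¹ ∈ N :=
          hNE ▸ hEu q hq _ (placeAt_spec q) hτ
        have h0 := h q hq' hq _ hτ
        have e : g * σ = (g * σ * g⁻¹) * g := by group
        have h1 := congrArg f e
        rw [hr g σ hσN, hl _ hτN, h0, sub_self] at h1
        have h2 : ρ g (f σ - f 1) = 0 := by linear_combination (norm := abel) h1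
        exact sub_eq_zero.mp ((ρ.apply_bijective g).1 (h2.trans (map_zero _).symm))
      · obtain ⟨_, ⟨F₁, -, -, hF₁, rfl⟩, hz₁⟩ := hf
        have := hz₁ 1 σ (hF₁ q hq' A hA hσ)
        rwa [one_mul] at this
  exact ⟨N', hN', fun g s hs => by
    rw [hr g s (hN'H hs).1, (hN'H hs).2, sub_self, map_zero, add_zero]⟩

/-! ### Restriction to inertia -/

variable (ρ) in
/-- Inertia acts trivially. -/
def InertTriv (v : Nat.Primes) : Prop := ∀ σ ∈ inert v, ρ σ = 1

variable (ρ) in
/-- The values of a local cocycle on inertia. -/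
def resInert (v : Nat.Primes) :
    Z1 (glev (decAt v).subtype) (repAt v ρ) →ₗ[ZMod p] (inert v → M) where
  toFun z σ := z.1 ⟨σ, mem_decAt_of_inertia σ.2⟩
  map_add' _ _ := rfl
  map_smul' _ _ := rfl

/-- The ramification of a local class. -/
def ramv {v : Nat.Primes} (hI : InertTriv ρ v) : LH1 v ρ →ₗ[ZMod p] (inert v → M) :=
  Submodule.liftQ _ (resInert ρ v) fun z ⟨m, hm⟩ => funext fun σ => by
    have h := congrFun hm ⟨σ, mem_decAt_of_inertia σ.2⟩
    change ρ σ m - m = z.1 ⟨σ, mem_decAt_of_inertia σ.2⟩ at h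
    rw [hI σ σ.2, Module.End.one_apply, sub_self] at h
    exact h.symm

/-- The ramification of the class of a cocycle is given by its values on inertia. -/
lemma ramv_cl₁ {v : Nat.Primes} (hI : InertTriv ρ v)
    (z : Z1 (glev (decAt v).subtype) (repAt v ρ)) (σ : inert v) :
    ramv hI (cl₁ (glev (decAt v).subtype) (repAt v ρ) z) σ =
      z.1 ⟨σ, mem_decAt_of_inertia σ.2⟩ := rfl

variable [FiniteDimensional (ZMod p) M] {S : Finset Nat.Primes} {M' : Type} [AddCommGroup M']
  [Module (ZMod p) M'] [FiniteDimensional (ZMod p) M'] {ρ' : Representation (ZMod p) Γℚ M'}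

/-- Inertia at a prime outside `S` acts trivially. -/
lemma inertTriv {S : Set Nat.Primes} (hsm : IsSmooth (galLevels S) ρ) {v : Nat.Primes}
    (hv : v ∉ S) : InertTriv ρ v := fun _ hσ => rho_eq_one_of_inertia hsm hv (placeAt_spec v) hσ

section Local

variable (D : DualPair S ρ ρ') (h2 : 2 < p) {v : Nat.Primes} (hv : v ∉ S)

include D h2 hv

/-- At most as many classes without ramification as invariants. -/
lemma finrank_ker_ramv_le :
    Module.finrank (ZMod p) (LinearMap.ker (ramv (inertTriv D.smooth (fun h => hv h)))) ≤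
      Module.finrank (ZMod p) (H0 (repAt v ρ)) := by
  classical
  have := D.finite_LH1 h2 v
  obtain ⟨φ, hφ⟩ := exists_isFrobeniusAt v.2 (placeAt_spec v)
  set φD : decAt v := ⟨φ, hφ.mem_decompositionSubgroup⟩
  -- evaluation at Frobenius modulo its image is injective on the unramified classes
  set U : M →ₗ[ZMod p] M := ρ φ - 1
  have hI := inertTriv D.smooth (v := v) (fun h => hv h)
  let evφ : LH1 v ρ →ₗ[ZMod p] M ⧸ LinearMap.range U :=
    Submodule.liftQ _
      { toFun := fun z : Z1 (glev (decAt v).subtype) (repAt v ρ) =>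
          Submodule.Quotient.mk (z.1 φD)
        map_add' := fun _ _ => rfl
        map_smul' := fun _ _ => rfl }
      fun z ⟨m, hm⟩ => (Submodule.Quotient.mk_eq_zero _).mpr ⟨m, congrFun hm φD⟩
  let F := evφ.comp (LinearMap.ker (ramv hI)).subtype
  have hF : Function.Injective F := by
    refine (injective_iff_map_eq_zero _).mpr ?_
    rintro ⟨x, hx⟩ h0
    obtain ⟨z, rfl⟩ := cl₁_surjective x
    obtain ⟨m, hm⟩ : z.1 φD ∈ LinearMap.range U := (Submodule.Quotient.mk_eq_zero _).mp h0
    refine Subtype.ext (cl₁_eq_zero.mpr ⟨m, ?_⟩)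
    set d : Z1 (glev (decAt v).subtype) (repAt v ρ) :=
      ⟨d₀ (repAt v ρ) m, isLC₁_d₀ (D.smoothAt v) m, d₁_d₀ _ m⟩
    set y := z - d with hy
    -- the difference vanishes on Frobenius and inertia
    have hyφ : y.1 φD = 0 := by
      change z.1 φD - (ρ φ m - m) = 0
      rw [← hm]
      exact sub_self _
    have hyI : ∀ σ : inert v, y.1 ⟨σ, mem_decAt_of_inertia σ.2⟩ = 0 := fun σ => by
      change z.1 _ - (ρ σ m - m) = 0
      rw [hI σ σ.2, Module.End.one_apply, sub_self, sub_zero]
      exact congrFun (LinearMap.mem_ker.mp hx) σ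
    have hpow : ∀ n : ℕ, y.1 (φD ^ n) = 0 := fun n => by
      induction n with
      | zero => rw [pow_zero]; exact Z1_one y.2
      | succ n ih => rw [pow_succ, cocycle₁ y.2, hyφ, map_zero, ih, add_zero]
    obtain ⟨_, ⟨_, ⟨E, hEf, hEn, -, rfl⟩, rfl⟩, hLC⟩ := y.2.1
    funext g
    change (d.1 g) = z.1 g
    refine (sub_eq_zero.mp (show y.1 g = 0 from ?_)).symm
    -- which generate up to a level
    obtain ⟨i, σ, hσ, hi⟩ := Fermat.FLAT.exists_frob_pow_mul (L := E)
      (ρ := AlgEquiv.restrictNormalHom E) ⟨v.2, placeAt_spec v⟩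
      (fun g hg => (restrict_eq_one_iff E g).mpr hg) hφ g.2
    set x : decAt v := φD ^ i * ⟨σ, mem_decAt_of_inertia hσ⟩
    have hx' : ((x⁻¹ * g : decAt v) : Γℚ) ∈ E.fixingSubgroup := by
      rw [← restrict_eq_one_iff E]
      change AlgEquiv.restrictNormalHom E ((φ ^ i * σ)⁻¹ * g.1) = 1
      rw [map_mul, map_inv, map_mul, map_pow, hi, inv_mul_cancel]
    rw [← mul_inv_cancel_left x g, hLC x _ hx', cocycle₁ y.2, hyI ⟨σ, hσ⟩, map_zero, hpow,
      add_zero]
  have h1 := LinearMap.finrank_le_finrank_of_injective hF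
  -- count dimensions
  have e1 := U.finrank_range_add_finrank_ker
  have e2 := (LinearMap.range U).finrank_quotient_add_finrank
  have e3 : Module.finrank (ZMod p) (LinearMap.ker U) ≤ Module.finrank (ZMod p) (H0 (repAt v ρ)) :=
    Submodule.finrank_mono fun m hm => mem_ker_d₀.mpr fun g => by
      rw [LinearMap.mem_ker, LinearMap.sub_apply, Module.End.one_apply, sub_eq_zero] at hm
      exact fixed_of_frobenius D h2 hv hφ hm g g.2
  omega

/-- **The classes without ramification are the unramified ones.** -/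
theorem ker_ramv : LinearMap.ker (ramv (inertTriv D.smooth (fun h => hv h))) = unrSub ρ v := by
  have := D.finite_LH1 h2 v
  refine (Submodule.eq_of_le_of_finrank_le (fun x hx => ?_)
    ((finrank_ker_ramv_le D h2 hv).trans (finrank_H0_le_unrSub D h2 hv))).symm
  obtain ⟨z, rfl⟩ := cl₁_surjective x
  exact LinearMap.mem_ker.mpr (funext fun σ =>
    apply_eq_zero_of_mem_unrSub D.smooth (fun h => hv h) hx σ.2)

/-- The local classes at an unramified prime, exactly. -/
lemma finrank_LH1_eq :
    Module.finrank (ZMod p) (LH1 v ρ) =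
      Module.finrank (ZMod p) (H0 (repAt v ρ)) + Module.finrank (ZMod p) (H0 (repAt v ρ')) := by
  have e2 := finrank_LH1_le D h2 hv
  have e3 := finrank_H0_le_unrSub D h2 hv
  have e4 := finrank_H0_le_unrSub D.flip h2 hv
  have e5 := finrank_unrSub_add_le D h2 hv
  omega

end Local

/-! ### Ramification outside `S` -/

/-- The space of ramifications at the primes of `T` outside `S`. -/
abbrev RamSp (S T : Finset Nat.Primes) : Type := (v : ↥(T \ S)) → inert (v : Nat.Primes) → M

/-- A prime of `T \ S` is outside `S`. -/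
lemma notMem_diff {S T : Finset Nat.Primes} (v : ↥(T \ S)) :
    (v : Nat.Primes) ∉ (S : Set Nat.Primes) :=
  fun h => (Finset.mem_sdiff.mp v.2).2 h

/-- The ramification of a cochain. -/
def ramTot (S T : Finset Nat.Primes) : (Γℚ → M) →ₗ[ZMod p] RamSp (M := M) S T where
  toFun f v σ := f σ - f 1
  map_add' f f' := funext₂ fun v σ => by simp only [Pi.add_apply]; abel
  map_smul' c f := funext₂ fun v σ => by simp [smul_sub]

/-- The ramifications of local classes. -/
def ramLoc (hsm : IsSmooth (galLevels (S : Set Nat.Primes)) ρ) (T : Finset Nat.Primes) :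
    P1 (T \ S) ρ →ₗ[ZMod p] RamSp (M := M) S T :=
  LinearMap.piMap fun v : ↥(T \ S) => ramv (inertTriv hsm (notMem_diff v))

/-- The ramifications of global classes. -/
def ramGlob (ρ : Representation (ZMod p) Γℚ M) (S T : Finset Nat.Primes) :
    Submodule (ZMod p) (RamSp (M := M) S T) :=
  (Z1 (galLevels (T : Set Nat.Primes)) ρ).map (ramTot (M := M) (p := p) S T)

variable {T : Finset Nat.Primes}

/-- The ramification of a global cocycle is that of its localisations. -/
lemma ramTot_cocycle (hsm : IsSmooth (galLevels (S : Set Nat.Primes)) ρ)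
    (z : Z1 (galLevels (T : Set Nat.Primes)) ρ) :
    ramTot (M := M) (p := p) S T z.1 = ramLoc hsm T fun v =>
      map₁ (locHom (T : Set Nat.Primes) (v : Nat.Primes))
        (IsEquivariant.restrict ρ (decAt (v : Nat.Primes)).subtype)
        (cl₁ (galLevels (T : Set Nat.Primes)) ρ z) :=
  funext₂ fun v σ => by
    change z.1 σ - z.1 1 = _
    rw [Z1_one z.2, sub_zero]
    rfl

/-- Global ramifications are among the local ones. -/
lemma ramGlob_le (hsm : IsSmooth (galLevels (S : Set Nat.Primes)) ρ) :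
    ramGlob ρ S T ≤ LinearMap.range (ramLoc hsm T) := by
  rintro _ ⟨z, hz, rfl⟩
  exact ⟨_, (ramTot_cocycle hsm ⟨z, hz⟩).symm⟩

/-- The image in the ramification space has the dimension of the invariants of the dual at the
new primes. -/
lemma finrank_range_ramLoc (D : DualPair S ρ ρ') (h2 : 2 < p) :
    Module.finrank (ZMod p) (LinearMap.range (ramLoc D.smooth T)) =
      ∑ v : ↥(T \ S), Module.finrank (ZMod p) (H0 (repAt (v : Nat.Primes) ρ')) := by
  have : ∀ v : ↥(T \ S), FiniteDimensional (ZMod p) (LH1 (v : Nat.Primes) ρ) :=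
    fun v => D.finite_LH1 h2 v
  have : ∀ v : ↥(T \ S), Module.Free (ZMod p) (LH1 (v : Nat.Primes) ρ) := fun v => inferInstance
  have hker : LinearMap.ker (ramLoc D.smooth T) =
      piSub fun v : ↥(T \ S) => unrSub ρ (v : Nat.Primes) := by
    ext x
    constructor
    · intro hx v
      change x v ∈ unrSub ρ (v : Nat.Primes)
      rw [← ker_ramv D h2 (notMem_diff v)]
      exact congrFun (LinearMap.mem_ker.mp hx) v
    · intro hx
      refine LinearMap.mem_ker.mpr (funext fun v => ?_)
      have h : x v ∈ unrSub ρ (v : Nat.Primes) := hx v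
      rw [← ker_ramv D h2 (notMem_diff v)] at h
      exact h
  have e1 := (ramLoc D.smooth T).finrank_range_add_finrank_ker
  have e2 : Module.finrank (ZMod p) (P1 (T \ S) ρ) =
      ∑ v : ↥(T \ S), Module.finrank (ZMod p) (H0 (repAt (v : Nat.Primes) ρ)) +
        ∑ v : ↥(T \ S), Module.finrank (ZMod p) (H0 (repAt (v : Nat.Primes) ρ')) := by
    rw [← Finset.sum_add_distrib]
    exact (Module.finrank_pi_fintype (ZMod p)
      (M := fun v : ↥(T \ S) => LH1 (v : Nat.Primes) ρ)).trans
        (Finset.sum_congr rfl fun v _ => finrank_LH1_eq D h2 (notMem_diff v))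
  rw [hker, finrank_piSub, Finset.sum_congr rfl fun v _ => le_antisymm
    (finrank_unrSub_le D h2 (notMem_diff v)) (finrank_H0_le_unrSub D h2 (notMem_diff v))] at e1
  omega

/-- The local ramifications form a finite dimensional space. -/
lemma finite_range_ramLoc (D : DualPair S ρ ρ') (h2 : 2 < p) :
    FiniteDimensional (ZMod p) (LinearMap.range (ramLoc D.smooth T)) := by
  have : ∀ v : ↥(T \ S), FiniteDimensional (ZMod p) (LH1 (v : Nat.Primes) ρ) :=
    fun v => D.finite_LH1 h2 v
  infer_instance

end Fermat.CFT.Sha
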