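import Fermat.Agent.CFT.Sha.LocalMap
import Fermat.Prelude.Def_GroupCohomology_ContinuousUnramified

/-!
# The frozen groups of locally trivial classes

They agree with the kernels of localisation for cochains on the levels unramified outside `S`.
-/

set_option autoImplicit false

noncomputable section

open ExtCitation Fermat.CFT.Coh CategoryTheory
open scoped Pointwise

namespace Fermat.CFT.Sha

local notation "ℚbar" => AlgebraicClosure ℚ
local notation "Γℚ" => (AlgebraicClosure ℚ ≃ₐ[ℚ] AlgebraicClosure ℚ)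

variable {p : ℕ} [hp : Fact p.Prime] {S : Finset Nat.Primes} {A : Rep (ZMod p) Γℚ}

variable (S A) in
/-- Classes of degree one as classes of the abstract group. -/
def toH1 : Coh.H1 (galLevels (S : Set Nat.Primes)) A.ρ →ₗ[ZMod p] groupCohomology.H1 A :=
  Submodule.liftQ _
    { toFun := fun z => (groupCohomology.H1π A).hom
        ⟨z.1, (groupCohomology.mem_cocycles₁_iff z.1).mpr fun g h => cocycle₁ z.2 g h⟩
      map_add' := fun z z' => map_add (groupCohomology.H1π A).hom ⟨z.1, _⟩ ⟨z'.1, _⟩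
      map_smul' := fun c z => map_smul (groupCohomology.H1π A).hom c ⟨z.1, _⟩ }
    fun _ ⟨m, hm⟩ => (groupCohomology.H1π_eq_zero_iff _).mpr ⟨m, hm⟩

/-- `toH1` is injective. -/
lemma toH1_injective : Function.Injective (toH1 S A) := by
  refine (injective_iff_map_eq_zero _).mpr fun x hx => ?_
  obtain ⟨z, rfl⟩ := cl₁_surjective x
  obtain ⟨m, hm⟩ := (groupCohomology.H1π_eq_zero_iff _).mp hx
  exact cl₁_eq_zero.mpr ⟨m, hm⟩

/-- The image of `toH1` consists of the classes unramified outside `S`. -/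
lemma range_toH1 : LinearMap.range (toH1 S A) = groupCohomology.continuousH1S S A := by
  ext x
  rw [groupCohomology.mem_continuousH1S_iff]
  constructor
  · rintro ⟨y, rfl⟩
    obtain ⟨z, rfl⟩ := cl₁_surjective y
    exact ⟨⟨z.1, _⟩, isLevelConstantS₁_iff.mpr z.2.1, rfl⟩
  · rintro ⟨c, hc, rfl⟩
    refine ⟨cl₁ (galLevels (S : Set Nat.Primes)) A.ρ ⟨c.1, isLevelConstantS₁_iff.mp hc,
      funext₂ fun g h => ?_⟩, rfl⟩
    exact (groupCohomology.mem_cocycles₁_def c.1).mp c.2 g h

/-- For odd `p` the order of the archimedean decomposition group is prime to `p`. -/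
lemma arch_card (h2 : 2 < p) [Fintype archimedeanDecomposition] :
    ((Fintype.card archimedeanDecomposition : ℕ) : ZMod p) ≠ 0 := by
  intro h
  have hd : Fintype.card archimedeanDecomposition ∣ 2 := by
    rw [← Nat.card_eq_fintype_card, show archimedeanDecomposition =
      Subgroup.zpowers complexConjugation from rfl, Nat.card_zpowers]
    exact orderOf_dvd_of_pow_eq_one complexConjugation_sq
  have := Nat.le_of_dvd two_pos (((ZMod.natCast_eq_zero_iff _ p).mp h).trans hd)
  omega

/-- The archimedean decomposition group is finite. -/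
lemma finite_arch : Finite archimedeanDecomposition := by
  rw [show archimedeanDecomposition = Subgroup.zpowers complexConjugation from rfl]
  exact (finite_zpowers.mpr (isOfFinOrder_iff_pow_eq_one.mpr
    ⟨2, two_pos, complexConjugation_sq⟩)).to_subtype

/-- The local Galois group maps into the decomposition group of its place with dense image. -/
lemma dense_primeLocal (q : Nat.Primes) :
    (∀ g, primeLocalToGlobal q g ∈ (primeLocalPlace q).decompositionSubgroup ℚ) ∧
    (∀ σ ∈ (primeLocalPlace q).decompositionSubgroup ℚ, ∀ N, (galLevels Set.univ).IsLevel N →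
      ∃ g, (primeLocalToGlobal q g)⁻¹ * σ ∈ N) := by
  have : Fact (q : ℕ).Prime := ⟨q.2⟩
  refine ⟨fun g => localGaloisToGlobal_mem_decompositionSubgroup (q : ℕ) g, ?_⟩
  rintro σ hσ _ ⟨E, hE, hEn, -, rfl⟩
  exact exists_localGalois_restrict (q : ℕ) hσ E

/-- The chosen place lies over its prime. -/
lemma primeLocalPlace_spec (q : Nat.Primes) : (primeLocalPlace q).LiesOverPrime (q : ℕ) := by
  have : Fact (q : ℕ).Prime := ⟨q.2⟩
  exact padicPlace_liesOverPrime (q : ℕ)

variable [FiniteDimensional (ZMod p) A]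

omit [FiniteDimensional (ZMod p) A] in
/-- The frozen group of locally trivial classes in degree one is the kernel of localisation. -/
lemma mem_sha₁_iff (h2 : 2 < p) (hsm : IsSmooth (galLevels (S : Set Nat.Primes)) A.ρ)
    (x : Coh.H1 (galLevels (S : Set Nat.Primes)) A.ρ) :
    toH1 S A x ∈ groupCohomology.sha₁ S A ↔ loc₁ S A.ρ x = 0 := by
  obtain ⟨z, rfl⟩ := cl₁_surjective x
  set c : groupCohomology.cocycles₁ A :=
    ⟨z.1, (groupCohomology.mem_cocycles₁_iff z.1).mpr fun g h => cocycle₁ z.2 g h⟩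
  have key : ∀ v : extArithIndex S,
      (groupCohomology.locRes (extArithLoc S) A v).hom ((groupCohomology.H1π A).hom c) = 0 ↔
        ∃ m : A, ∀ g, A.ρ (extArithLoc S v g) m - m = z.1 (extArithLoc S v g) := fun v => by
    have h := groupCohomology.H1π_comp_map_apply (extArithLoc S v)
      (𝟙 (Rep.res (extArithLoc S v) A)) c
    change (groupCohomology.locRes (extArithLoc S) A v).hom ((groupCohomology.H1π A).hom c) = _ at h
    rw [h]
    exact (groupCohomology.H1π_eq_zero_iff _).trans
      ⟨fun ⟨m, hm⟩ => ⟨m, fun g => congrFun hm g⟩, fun ⟨m, hm⟩ => ⟨m, funext hm⟩⟩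
  have hq : ∀ q : S, (∃ m : A, ∀ g, A.ρ (primeLocalToGlobal q.1 g) m - m =
      z.1 (primeLocalToGlobal q.1 g)) ↔ loc₁ S A.ρ (cl₁ _ A.ρ z) q = 0 := fun q => by
    obtain ⟨h1, h2'⟩ := dense_primeLocal q.1
    rw [bounds₁_dense_iff (primeLocalToGlobal q.1) h1 h2' hsm z,
      bounds₁_iff z q.1.2 (primeLocalPlace_spec q.1) (placeAt_spec q.1)]
    exact Iff.trans ⟨fun ⟨m, hm⟩ => ⟨m, funext fun d => hm d d.2⟩,
      fun ⟨m, hm⟩ => ⟨m, fun d hd => congrFun hm ⟨d, hd⟩⟩⟩ cl₁_eq_zero.symm
  constructor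
  · rintro ⟨-, hx⟩
    refine funext fun q => (hq q).mp ((key (Sum.inr q)).mp ?_)
    exact congrFun (LinearMap.mem_ker.mp hx) (Sum.inr q)
  · intro hx
    refine ⟨range_toH1 (S := S) (A := A) ▸ ⟨_, rfl⟩, LinearMap.mem_ker.mpr (funext fun v => ?_)⟩
    refine (key v).mpr ?_
    rcases v with u | q
    · have := finite_arch
      let : Fintype archimedeanDecomposition := Fintype.ofFinite _
      exact bounds₁_finite (p := p) (ρ := A.ρ) archimedeanLoc (arch_card h2)
        fun g h => cocycle₁ z.2 g h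
    · exact (hq q).mpr (congrFun hx q)

omit [FiniteDimensional (ZMod p) A] in
/-- The frozen group of locally trivial classes of degree one is the kernel of localisation. -/
lemma sha₁_eq (h2 : 2 < p) (hsm : IsSmooth (galLevels (S : Set Nat.Primes)) A.ρ) :
    groupCohomology.sha₁ S A = (LinearMap.ker (loc₁ S A.ρ)).map (toH1 S A) := by
  ext x
  constructor
  · intro hx
    obtain ⟨y, rfl⟩ := (range_toH1 (S := S) (A := A)).symm ▸ hx.1
    exact ⟨y, (mem_sha₁_iff h2 hsm y).mp hx, rfl⟩
  · rintro ⟨y, hy, rfl⟩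
    exact (mem_sha₁_iff h2 hsm y).mpr hy

omit [FiniteDimensional (ZMod p) A]

variable (S A) in
/-- Cocycles of degree two as frozen cocycles. -/
def toZ2S : Coh.Z2 (galLevels (S : Set Nat.Primes)) A.ρ →ₗ[ZMod p]
    ↥(groupCohomology.levelCocyclesS₂ S A) where
  toFun z := ⟨fun x => z.1 x.1 x.2,
    (groupCohomology.mem_levelCocyclesS₂_iff S A _).mpr
      ⟨(groupCohomology.mem_cocycles₂_def (fun x : Γℚ × Γℚ => z.1 x.1 x.2)).mpr fun g h j =>
          congrFun (congrFun (congrFun z.2.2 g) h) j,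
        (isLevelConstantS₂_iff (f := fun x : Γℚ × Γℚ => z.1 x.1 x.2)).mpr z.2.1⟩⟩
  map_add' _ _ := rfl
  map_smul' _ _ := rfl

variable (S A) in
/-- Classes of degree two as frozen classes. -/
def toH2 : Coh.H2 (galLevels (S : Set Nat.Primes)) A.ρ →ₗ[ZMod p]
    groupCohomology.continuousH2S S A :=
  Submodule.liftQ _
    ((groupCohomology.continuousH2Sπ S A).comp (toZ2S S A))
    fun _ ⟨x, hx, hxz⟩ => (groupCohomology.continuousH2Sπ_eq_zero_iff S A _).mpr
      ((groupCohomology.mem_levelCoboundariesS₂_iff S A _).mpr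
        ⟨x, isLevelConstantS₁_iff.mpr hx, funext fun y => congrFun (congrFun hxz y.1) y.2⟩)

/-- `toH2` is bijective. -/
lemma toH2_bijective : Function.Bijective (toH2 S A) := by
  refine ⟨(injective_iff_map_eq_zero _).mpr fun c hc => ?_, fun c => ?_⟩
  · obtain ⟨z, rfl⟩ := cl₂_surjective c
    obtain ⟨x, hx, hxz⟩ := (groupCohomology.mem_levelCoboundariesS₂_iff S A _).mp
      ((groupCohomology.continuousH2Sπ_eq_zero_iff S A (toZ2S S A z)).mp hc)
    exact cl₂_eq_zero.mpr ⟨x, isLevelConstantS₁_iff.mp hx,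
      funext₂ fun g h => congrFun hxz (g, h)⟩
  · obtain ⟨⟨f, hf⟩, rfl⟩ := Submodule.mkQ_surjective _ c
    refine ⟨cl₂ (galLevels (S : Set Nat.Primes)) A.ρ
      ⟨fun g h => f (g, h), isLevelConstantS₂_iff.mp hf.2, ?_⟩,
      show groupCohomology.continuousH2Sπ S A (toZ2S S A _) = _ from rfl⟩
    exact funext₃ fun g h j => (groupCohomology.mem_cocycles₂_def f).mp hf.1 g h j

variable [FiniteDimensional (ZMod p) A]

/-- The frozen group of locally trivial classes in degree two is the kernel of localisation. -/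
lemma mem_sha₂_iff (h2 : 2 < p) (hsm : IsSmooth (galLevels (S : Set Nat.Primes)) A.ρ)
    (x : Coh.H2 (galLevels (S : Set Nat.Primes)) A.ρ) :
    toH2 S A x ∈ groupCohomology.sha₂ S A ↔ loc₂ S A.ρ x = 0 := by
  obtain ⟨z, rfl⟩ := cl₂_surjective x
  have key : ∀ v : extArithIndex S,
      groupCohomology.locRes₂S S A (extArithLoc S v) (toH2 S A (cl₂ _ A.ρ z)) = 0 ↔
        ∃ x : extArithLocalGroups S v → A,
          ((galLevels Set.univ).comap (extArithLoc S v)).IsLC₁ x ∧
          ∀ a b, d₁ (A.ρ.comp (extArithLoc S v)) x a b =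
            z.1 (extArithLoc S v a) (extArithLoc S v b) := fun v => by
    refine (groupCohomology.continuousH2π_eq_zero_iff _ _ _).trans
      ((groupCohomology.mem_levelCoboundaries₂_iff _ _ _).trans ?_)
    exact ⟨fun ⟨x, hx, hxz⟩ => ⟨x, (isLevelConstant₁_iff _).mp hx,
        fun a b => congrFun hxz (a, b)⟩,
      fun ⟨x, hx, hxz⟩ => ⟨x, (isLevelConstant₁_iff _).mpr hx, funext fun y => hxz y.1 y.2⟩⟩
  have hq : ∀ q : S, (∃ x : primeLocalGaloisGroup q.1 → A,
      ((galLevels Set.univ).comap (primeLocalToGlobal q.1)).IsLC₁ x ∧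
      ∀ a b, d₁ (A.ρ.comp (primeLocalToGlobal q.1)) x a b =
        z.1 (primeLocalToGlobal q.1 a) (primeLocalToGlobal q.1 b)) ↔
      loc₂ S A.ρ (cl₂ _ A.ρ z) q = 0 := fun q => by
    obtain ⟨h1, h2'⟩ := dense_primeLocal q.1
    rw [bounds₂_dense_iff (primeLocalToGlobal q.1) h1 h2' hsm z,
      bounds₂_iff z q.1.2 (primeLocalPlace_spec q.1) (placeAt_spec q.1)]
    exact Iff.trans ⟨fun ⟨u, hu, hdu⟩ => ⟨u, hu, funext₂ hdu⟩,
      fun ⟨u, hu, hdu⟩ => ⟨u, hu, fun a b => congrFun (congrFun hdu a) b⟩⟩ cl₂_eq_zero.symm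
  constructor
  · intro hx
    refine funext fun q => (hq q).mp ((key (Sum.inr q)).mp ?_)
    exact congrFun (LinearMap.mem_ker.mp hx) (Sum.inr q)
  · intro hx
    refine LinearMap.mem_ker.mpr (funext fun v => (key v).mpr ?_)
    rcases v with u | q
    · have := finite_arch
      let : Fintype archimedeanDecomposition := Fintype.ofFinite _
      exact bounds₂_finite (p := p) (ρ := A.ρ) archimedeanLoc (arch_card h2) z
    · exact (hq q).mpr (congrFun hx q)

/-- The frozen group of locally trivial classes of degree two is the kernel of localisation. -/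
lemma sha₂_eq (h2 : 2 < p) (hsm : IsSmooth (galLevels (S : Set Nat.Primes)) A.ρ) :
    groupCohomology.sha₂ S A = (LinearMap.ker (loc₂ S A.ρ)).map (toH2 S A) := by
  ext x
  obtain ⟨y, rfl⟩ := (toH2_bijective (S := S) (A := A)).2 x
  rw [mem_sha₂_iff h2 hsm]
  exact ⟨fun h => ⟨y, h, rfl⟩, fun ⟨y', hy', h⟩ => (toH2_bijective (S := S) (A := A)).1 h ▸ hy'⟩

omit [FiniteDimensional (ZMod p) A]

/-- A module with open stabilisers unramified outside `S` is smooth for the levels of `S`. -/
lemma isSmooth_of_unramified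
    (hsm : ∀ m : A, ∃ F : IntermediateField ℚ ℚbar, FiniteDimensional ℚ F ∧
      ∀ s ∈ F.fixingSubgroup, A.ρ s m = m)
    (hur : ∀ q : Nat.Primes, q ∉ S → ∀ B : ValuationSubring ℚbar,
      B.LiesOverPrime (q : ℕ) → ∀ g ∈ B.inertiaSubgroupIn ℚ, A.ρ g = 1) :
    IsSmooth (galLevels (S : Set Nat.Primes)) A.ρ := fun m => by
  obtain ⟨F, hF, hfix⟩ := hsm m
  let H : Subgroup Γℚ :=
    { carrier := {g | A.ρ g m = m}
      mul_mem' := by
        intro a b (ha : A.ρ a m = m) (hb : A.ρ b m = m)
        change A.ρ (a * b) m = m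
        rw [map_mul, Module.End.mul_apply, hb, ha]
      one_mem' := by
        change A.ρ 1 m = m
        rw [map_one, Module.End.one_apply]
      inv_mem' := by
        intro a (ha : A.ρ a m = m)
        change A.ρ a⁻¹ m = m
        conv_lhs => rw [← ha, ← Module.End.mul_apply, ← map_mul, inv_mul_cancel, map_one,
          Module.End.one_apply] }
  obtain ⟨N, hN, hle⟩ := exists_level_le_of_inertia (T := (S : Set Nat.Primes)) (H := H) (by
      obtain ⟨N, hN, hle⟩ := exists_level_univ_le F
      exact ⟨N, hN, fun g hg => hfix g (hle hg)⟩)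
    fun q hq B hB σ hσ => by
      change A.ρ σ m = m
      rw [hur q (fun h => hq h) B hB σ hσ, Module.End.one_apply]
  exact ⟨N, hN, fun s hs => hle hs⟩

end Fermat.CFT.Sha
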